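import Fermat.Agent.LT.Descent.Spec.RamKer
import Fermat.Agent.LT.Period.Good

/-!
# The class function at a ramified place acting on forms

The operator on forms given by right translations at the place, weighted by the class function.
-/

set_option autoImplicit false

noncomputable section

open Matrix IsDedekindDomain NumberField
open scoped MatrixGroups

namespace FermatAgent.LT.Ctx

open FermatAgent.LT.Whit (adelGrp atV rt)

variable {K : Type*} [Field K] [NumberField K]

/-- The operator on forms: right translations at `v` weighted by the class function. -/
def ramAct (v : HeightOneSpectrum (𝓞 K)) (f : InfPts K → adelGrp K → ℂ) :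
    InfPts K → adelGrp K → ℂ :=
  ∑ᶠ q : ↥(locK v) ⧸ (locK1 v).subgroupOf (locK v),
    ramFun v (q.out : G2 K) • rt (atV v (q.out : G2 K)) f

end FermatAgent.LT.Ctx
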