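import Mathlib
import Fermat.Agent.LT.Descent.LocKer
import Fermat.Agent.LT.Descent.ClassesBasic
import Fermat.Agent.LT.Whit.Hecke

/-!
# The local algebra generated by the adjacency kernel

Local kernels form an algebra; the adjacency kernel gives the Hecke operator.
-/

set_option autoImplicit false

noncomputable section

open Matrix IsDedekindDomain NumberField Filter WithZero
open scoped MatrixGroups ComplexConjugate

namespace FermatAgent.LT

namespace LocKer

variable {L : Type*} [Field L] [NumberField L] {U : Level L} {v : HeightOneSpectrum (𝓞 L)}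

/-- A linear combination of two kernels. -/
def lin (A B : LocKer U v) (c : ℂ) : LocKer U v where
  k x y := A.k x y + c * B.k x y
  inv g x y := by rw [A.inv, B.inv]
  row x := ((A.row x).union (B.row x)).subset fun y hy => by
    by_contra h
    simp only [Set.mem_union, Set.mem_ofPred_eq, not_or, not_not] at h
    exact hy (by simp [h.1, h.2])

/-- The linear combination of kernels. -/
lemma lin_k (A B : LocKer U v) (c : ℂ) (x y : G2 L ⧸ U.loc v) :
    (A.lin B c).k x y = A.k x y + c * B.k x y := rfl

/-- The sum along a row. -/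
lemma tsum_row_eq (A : LocKer U v) (f : G2 L ⧸ U.loc v → ℂ) (x : G2 L ⧸ U.loc v) :
    ∑' y, A.k x y * f y = ∑ y ∈ (A.row x).toFinset, A.k x y * f y :=
  tsum_eq_sum fun y hy => by
    rw [show A.k x y = 0 by simpa using hy, zero_mul]

/-- Rows against functions converge. -/
lemma summable_row (A : LocKer U v) (f : G2 L ⧸ U.loc v → ℂ) (x : G2 L ⧸ U.loc v) :
    Summable fun y => A.k x y * f y :=
  summable_of_hasFiniteSupport ((A.row x).subset fun _ hy => left_ne_zero_of_mul hy)

/-- Linear combinations multiply on the right. -/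
lemma lin_mul (A B C : LocKer U v) (c : ℂ) : A.lin B c * C = (A * C).lin (B * C) c := by
  ext x z
  simp only [mul_k, lin_k, add_mul, mul_assoc]
  rw [(A.summable_row _ x).tsum_add ((B.summable_row _ x).mul_left c), tsum_mul_left]

lemma heckeSet_inv {g : G2 L} (hg : g ∈ heckeSet v) : g⁻¹ ∈ heckeSet v := by
  obtain ⟨h, ⟨hle, hdet⟩, rfl⟩ := hg
  have hd := (Matrix.GeneralLinearGroup.det h).ne_zero
  refine ⟨h⁻¹ * sc (Matrix.GeneralLinearGroup.det h), ⟨fun i j => ?_, ?_⟩, ?_⟩
  · have e : (h⁻¹ * sc (Matrix.GeneralLinearGroup.det h)).val = h.val.adjugate := by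
      rw [Units.val_mul, sc_val, Matrix.coe_units_inv, Matrix.inv_def, Ring.inverse_eq_inv',
        mul_smul_comm, mul_one, smul_smul, Matrix.GeneralLinearGroup.val_det_apply,
        mul_inv_cancel₀ (by simpa using hd), one_smul]
    rw [e, Matrix.adjugate_fin_two]
    fin_cases i <;> fin_cases j <;> simp [hle]
  · rw [Units.val_mul, Matrix.det_mul, det_sc, Matrix.coe_units_inv, Matrix.det_nonsing_inv,
      Ring.inverse_eq_inv', map_mul, map_inv₀, map_pow, Matrix.GeneralLinearGroup.val_det_apply,
      hdet, pow_two, inv_mul_cancel_left₀ exp_ne_zero]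
  · rw [map_mul, map_inv, ProjGenLinGroup.mk_scalar, mul_one]

variable (hv : U.loc v = locK v)

include hv in
open Classical in
lemma finite_adj (c : G2 L ⧸ U.loc v) : (FinCoset.adj v c).Finite := by
  induction c using QuotientGroup.induction_on with | H g =>
  refine (((Whit.residues v).image fun t => (QuotientGroup.mk (g * Whit.nbr v t) : G2 L ⧸ U.loc v))
    ∪ {QuotientGroup.mk (g * Whit.nbrLast v)}).finite_toSet.subset fun d hd => ?_
  obtain ⟨h, rfl⟩ := QuotientGroup.mk_surjective d
  rw [FinCoset.mem_adj_iff] at hd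
  simp only [Finset.coe_union, Finset.coe_image, Finset.coe_singleton, Set.mem_union, Set.mem_image,
    Finset.mem_coe, Set.mem_singleton_iff]
  rcases Whit.heckeSet_cases v hd with ⟨t, ht, hk⟩ | hk
  · refine Or.inl ⟨t, ht, ?_⟩
    rw [QuotientGroup.eq, hv, _root_.mul_inv_rev, mul_assoc]
    exact hk
  · refine Or.inr ?_
    rw [eq_comm, QuotientGroup.eq, hv, _root_.mul_inv_rev, mul_assoc]
    exact hk

open Classical in
/-- The adjacency kernel. -/
def hecke : LocKer U v where
  k c d := if d ∈ FinCoset.adj v c then 1 else 0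
  inv g c d := by
    refine if_congr ?_ rfl rfl
    induction c using QuotientGroup.induction_on with | H a =>
    induction d using QuotientGroup.induction_on with | H b =>
    rw [MulAction.Quotient.smul_mk, MulAction.Quotient.smul_mk, smul_eq_mul, smul_eq_mul,
      FinCoset.mem_adj_iff, FinCoset.mem_adj_iff, show (g * a)⁻¹ * (g * b) = a⁻¹ * b by group]
  row c := (finite_adj hv c).subset fun d hd => by
    by_contra h
    exact hd (if_neg h)

open Classical in
lemma hecke_k (c d : G2 L ⧸ U.loc v) :
    (hecke hv).k c d = if d ∈ FinCoset.adj v c then 1 else 0 := rfl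

/-- The Hecke kernel is Hermitian. -/
lemma isHerm_hecke : (hecke hv).IsHerm := fun c d => by
  classical
  induction c using QuotientGroup.induction_on with | H a =>
  induction d using QuotientGroup.induction_on with | H b =>
  simp only [hecke_k, FinCoset.mem_adj_iff, apply_ite conj, map_one, map_zero]
  refine if_congr ⟨fun h => ?_, fun h => ?_⟩ rfl rfl <;>
  · have := heckeSet_inv h
    rwa [_root_.mul_inv_rev, inv_inv] at this

/-- The kernel gives the Hecke operator. -/
lemma tsum_hecke (f : G2 L ⧸ U.loc v → ℂ) (c : G2 L ⧸ U.loc v) :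
    ∑' d, (hecke hv).k c d * f d = ∑' d : FinCoset.adj v c, f d := by
  classical
  rw [tsum_subtype (FinCoset.adj v c) f]
  exact tsum_congr fun d => by by_cases h : d ∈ FinCoset.adj v c <;> simp [hecke_k, h]

/-- Polynomials in a kernel, given by their coefficients. -/
def poly (A : LocKer U v) (P : ℕ → ℂ) : ℕ → LocKer U v
  | 0 => (1 : LocKer U v).lin (1 : LocKer U v) (P 0 - 1)
  | n + 1 => (poly A P n).lin (A ^ (n + 1)) (P (n + 1))

/-- The entries of a polynomial in a kernel. -/
lemma poly_k (A : LocKer U v) (P : ℕ → ℂ) : ∀ (n : ℕ) (c d : G2 L ⧸ U.loc v),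
    (A.poly P n).k c d = ∑ i ∈ Finset.range (n + 1), P i * (A ^ i).k c d
  | 0, c, d => by simp [poly, lin_k]; ring
  | n + 1, c, d => by
    rw [poly, lin_k, poly_k A P n, ← Finset.sum_range_succ (fun i => P i * (A ^ i).k c d)]

end LocKer

end FermatAgent.LT
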