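import Mathlib
import Fermat.Agent.LT.Descent.InfComp

/-!
# The algebra of invariant kernels at infinity

Two points of the upper half space are exchanged by an isometry, so invariant kernels are
symmetric and commute; linear combinations are again kernels.
-/

set_option autoImplicit false

noncomputable section

open Matrix MeasureTheory
open scoped MatrixGroups ComplexConjugate

namespace FermatAgent.LT

namespace H3

/-- Some isometry exchanges two points. -/
theorem exists_swap (p q : H3) : ∃ g : GL (Fin 2) ℂ, g • p = q ∧ g • q = p := by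
  suffices key : ∀ q : H3, ∃ g : GL (Fin 2) ℂ, g • base = q ∧ g • q = base by
    obtain ⟨h, hh, -⟩ := exists_smul_base p
    obtain ⟨g, h1, h2⟩ := key (h⁻¹ • q)
    refine ⟨h * g * h⁻¹, ?_, ?_⟩
    · rw [mul_smul, mul_smul, ← hh, inv_smul_smul, h1, smul_inv_smul]
    · rw [mul_smul, mul_smul, h2, hh]
  intro q
  obtain ⟨u, huu, huz⟩ : ∃ u : ℂ, u * conj u = 1 ∧ u ^ 2 * conj q.z = q.z := by
    by_cases hz : q.z = 0
    · exact ⟨1, by simp, by simp [hz]⟩
    · have hn : ((‖q.z‖ : ℝ) : ℂ) ≠ 0 := by simpa using hz
      have hsq : q.z * conj q.z = ((‖q.z‖ : ℝ) : ℂ) ^ 2 := by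
        rw [Complex.mul_conj, Complex.normSq_eq_norm_sq]; push_cast; ring
      refine ⟨q.z / ((‖q.z‖ : ℝ) : ℂ), ?_, ?_⟩
      · rw [map_div₀, Complex.conj_ofReal, div_mul_div_comm, hsq, ← pow_two,
          div_self (pow_ne_zero _ hn)]
      · rw [div_pow, div_mul_eq_mul_div, div_eq_iff (pow_ne_zero _ hn), ← hsq]
        ring
  set H := herm q
  have ht : (q.t : ℂ) ≠ 0 := by exact_mod_cast q.t_pos.ne'
  have hH : H.det = 1 := by
    simp only [H, herm, Matrix.det_fin_two, Matrix.of_apply, Matrix.cons_val', Matrix.cons_val_zero,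
      Matrix.cons_val_one, Matrix.cons_val_fin_one]
    have hns : ((Complex.normSq q.z : ℝ) : ℂ) = q.z * conj q.z := (Complex.mul_conj q.z).symm
    push_cast
    rw [hns]
    field_simp
    ring
  set τ := H.trace + 2
  have hτr : τ = (((q.t ^ 2 + Complex.normSq q.z) / q.t + q.t⁻¹ + 2 : ℝ) : ℂ) := by
    simp [τ, H, herm, Matrix.trace_fin_two]
  have hτpos : 0 < (q.t ^ 2 + Complex.normSq q.z) / q.t + q.t⁻¹ + 2 := by
    have := q.t_pos
    have := Complex.normSq_nonneg q.z
    positivity
  set B : Matrix (Fin 2) (Fin 2) ℂ := !![0, Complex.I * u; -Complex.I * conj u, 0]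
  set M := (H + 1) * B
  have hB : B.det = -1 := by
    simp [B, Matrix.det_fin_two]
    linear_combination Complex.I * Complex.I * huu + (Complex.I_mul_I : Complex.I * Complex.I = -1)
  have hM : M.det = -τ := by
    rw [Matrix.det_mul, hB]
    simp only [Matrix.det_fin_two, τ, Matrix.trace_fin_two] at hH ⊢
    simp
    linear_combination (-1 : ℂ) * hH
  have hM0 : M.det ≠ 0 := by
    rw [hM, hτr, neg_ne_zero]
    exact_mod_cast hτpos.ne'
  have hnorm : ((‖M.det‖ : ℝ) : ℂ) = τ := by
    rw [hM, norm_neg, hτr, Complex.norm_real, Real.norm_eq_abs, abs_of_pos hτpos]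
  have hHerm : (H + 1)ᴴ = H + 1 := by
    rw [Matrix.conjTranspose_add, Matrix.conjTranspose_one]
    congr 1
    ext i j
    fin_cases i <;> fin_cases j <;> simp [H, herm]
  have hBB : B * Bᴴ = 1 := by
    ext i j
    fin_cases i <;> fin_cases j <;> simp [B, Matrix.mul_apply, Fin.sum_univ_two] <;>
      linear_combination (-(Complex.I * Complex.I)) * huu -
        (Complex.I_mul_I : Complex.I * Complex.I = -1)
  have hBH : B * H * Bᴴ = H.adjugate := by
    have huz' : conj u ^ 2 * q.z = conj q.z := by
      simpa [map_mul, map_pow] using congrArg conj huz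
    rw [Matrix.adjugate_fin_two]
    ext i j
    fin_cases i <;> fin_cases j <;>
      simp [B, H, herm, Matrix.mul_apply, Fin.sum_univ_two] <;> field_simp <;> ring_nf <;>
      simp [Complex.I_sq]
    · linear_combination huu
    · linear_combination huz
    · linear_combination huz'
    · linear_combination ((q.t : ℂ) ^ 2 + (Complex.normSq q.z : ℂ)) * huu
  refine ⟨GeneralLinearGroup.mkOfDetNeZero M hM0, herm_injective ?_, herm_injective ?_⟩ <;>
    rw [smul_def, herm_act, show (GeneralLinearGroup.mkOfDetNeZero M hM0).val = M from rfl,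
      inv_smul_eq_iff₀ (by rw [hnorm, hτr]; exact_mod_cast hτpos.ne'), hnorm]
  · have e : herm base = 1 := by
      ext i j
      fin_cases i <;> fin_cases j <;> simp [herm, base]
    rw [e, mul_one, Matrix.conjTranspose_mul, hHerm,
      show (H + 1) * B * (Bᴴ * (H + 1)) = (H + 1) * (B * Bᴴ) * (H + 1) by simp only [mul_assoc],
      hBB, mul_one]
    ext i j
    simp only [Matrix.det_fin_two] at hH
    fin_cases i <;> fin_cases j <;>
      simp [τ, Matrix.trace_fin_two, Matrix.mul_apply, Fin.sum_univ_two]
    · linear_combination (-1 : ℂ) * hH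
    · ring
    · ring
    · linear_combination (-1 : ℂ) * hH
  · have e : herm base = 1 := by
      ext i j
      fin_cases i <;> fin_cases j <;> simp [herm, base]
    rw [e, Matrix.conjTranspose_mul, hHerm,
      show (H + 1) * B * herm q * (Bᴴ * (H + 1)) = (H + 1) * (B * H * Bᴴ) * (H + 1) by
        simp only [H, mul_assoc],
      hBH, Matrix.adjugate_fin_two]
    ext i j
    simp only [Matrix.det_fin_two] at hH
    fin_cases i <;> fin_cases j <;>
      simp [τ, Matrix.trace_fin_two, Matrix.mul_apply, Fin.sum_univ_two]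
    · linear_combination (H 0 0 + 2) * hH
    · linear_combination (H 0 1) * hH
    · linear_combination (H 1 0) * hH
    · linear_combination (H 1 1 + 2) * hH

end H3

namespace InfKer

/-- Invariant kernels are symmetric. -/
theorem k_symm (A : InfKer) (p q : H3) : A.k p q = A.k q p := by
  obtain ⟨g, h1, h2⟩ := H3.exists_swap p q
  conv_lhs => rw [← A.inv g, h1, h2]

/-- Invariant kernels commute. -/
theorem comp_comm (A B : InfKer) (p r : H3) : (A.comp B).k p r = (B.comp A).k p r := by
  rw [(A.comp B).k_symm, comp_k, comp_k]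
  refine integral_congr_ae (ae_of_all _ fun q => ?_)
  show A.k r q * B.k q p = B.k p q * A.k q r
  rw [A.k_symm r q, B.k_symm q p, mul_comm]

/-- Composition depends only on the kernels. -/
lemma comp_congr {A A' B B' : InfKer} (hA : A.k = A'.k) (hB : B.k = B'.k) :
    (A.comp B).k = (A'.comp B').k := by
  funext p r
  simp [comp_k, hA, hB]

/-- A multiple of a kernel. -/
def smul (c : ℂ) (A : InfKer) : InfKer where
  k p q := c * A.k p q
  meas := measurable_const.mul A.meas
  inv g p q := by rw [A.inv]
  C := ‖c‖ * A.C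
  C_nonneg := mul_nonneg (norm_nonneg _) A.C_nonneg
  bound p q := by rw [norm_mul]; exact mul_le_mul_of_nonneg_left (A.bound p q) (norm_nonneg _)
  ρ := A.ρ
  supp p q h := A.supp p q (right_ne_zero_of_mul h)

/-- The sum of two kernels. -/
def add (A B : InfKer) : InfKer where
  k p q := A.k p q + B.k p q
  meas := A.meas.add B.meas
  inv g p q := by rw [A.inv, B.inv]
  C := A.C + B.C
  C_nonneg := add_nonneg A.C_nonneg B.C_nonneg
  bound p q := (norm_add_le _ _).trans (add_le_add (A.bound p q) (B.bound p q))
  ρ := max A.ρ B.ρ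
  supp p q h := by
    by_cases hA : A.k p q = 0
    · exact (B.supp p q (by simpa [hA] using h)).trans (le_max_right _ _)
    · exact (A.supp p q hA).trans (le_max_left _ _)

/-- Multiples of flip invariant kernels are flip invariant. -/
lemma IsFlip.smul {A : InfKer} (h : A.IsFlip) (c : ℂ) : (A.smul c).IsFlip := fun p q => by
  show c * _ = c * _
  rw [h]

/-- Sums of flip invariant kernels are flip invariant. -/
lemma IsFlip.add {A B : InfKer} (hA : A.IsFlip) (hB : B.IsFlip) : (A.add B).IsFlip := fun p q => by
  show _ + _ = _ + _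
  rw [hA, hB]

/-- Composition is homogeneous. -/
lemma smul_comp (c : ℂ) (A B : InfKer) (p r : H3) :
    ((A.smul c).comp B).k p r = c * (A.comp B).k p r := by
  simp only [comp_k, ← integral_const_mul]
  exact integral_congr_ae (ae_of_all _ fun q => mul_assoc _ _ _)

/-- Composition is additive. -/
lemma add_comp (A A' B : InfKer) (p r : H3) :
    ((A.add A').comp B).k p r = (A.comp B).k p r + (A'.comp B).k p r := by
  simp only [comp_k]
  have hB : Measurable fun q => B.k q r := B.meas.comp (measurable_id.prodMk measurable_const)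
  rw [← integral_add (A.integrable_row p hB fun q => B.bound q r)
    (A'.integrable_row p hB fun q => B.bound q r)]
  exact integral_congr_ae (ae_of_all _ fun q => add_mul _ _ _)

end InfKer

end FermatAgent.LT
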