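import Mathlib
import Fermat.Agent.LT.Descent.Spec.InfAlg
import Fermat.Agent.LT.Descent.Compose
import Fermat.Agent.LT.Descent.KerPair

/-!
# Products of product kernels

Composition of product kernels is taken component by component.
-/

set_option autoImplicit false

noncomputable section

open Matrix IsDedekindDomain NumberField Filter MeasureTheory
open scoped MatrixGroups ENNReal ComplexConjugate

namespace FermatAgent.LT.KerData

variable {L : Type*} [Field L] [NumberField L] {U : Level L}

open Classical in
/-- The componentwise product. -/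
instance : Mul (KerData U) where
  mul D E :=
    { inf := fun w => (D.inf w).comp (E.inf w)
      fin := fun v => D.fin v * E.fin v
      S := D.S ∪ E.S
      fin_eq_one := fun v hv => by
        rw [Finset.mem_union, not_or] at hv
        rw [D.fin_eq_one v hv.1, E.fin_eq_one v hv.2, _root_.one_mul] }

variable (D E : KerData U)

lemma mul_inf (w : InfinitePlace L) : (D * E).inf w = (D.inf w).comp (E.inf w) := rfl

/-- Finite components multiply. -/
lemma mul_fin (v : HeightOneSpectrum (𝓞 L)) : (D * E).fin v = D.fin v * E.fin v := rfl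

/-- Equal components give equal point kernels. -/
lemma toPtKer_congr {D E : KerData U} (hi : ∀ w, (D.inf w).k = (E.inf w).k)
    (hf : ∀ v, D.fin v = E.fin v) : D.toPtKer.k = E.toPtKer.k := by
  classical
  funext x y
  rw [toPtKer_k, toPtKer_k]
  congr 1
  · exact Finset.prod_congr rfl fun w _ => by rw [hi]
  · rw [D.kfin_eq_of_subset (Finset.subset_union_left (s₂ := E.S)),
      E.kfin_eq_of_subset (Finset.subset_union_right (s₁ := D.S))]
    simp only [hf]

lemma kinf_mul (p r : InfPts L) : ∫ q, D.kinf p q * E.kinf q r
    ∂(Measure.pi fun _ : InfinitePlace L => H3.vol) = (D * E).kinf p r := by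
  simp only [kinf, ← Finset.prod_mul_distrib, mul_inf, InfKer.comp_k]
  exact integral_fintype_prod_eq_prod (fun w q => (D.inf w).k (p w) q * (E.inf w).k q (r w))

open Classical in
/-- Finite kernels compose. -/
lemma kfin_mul (c d : FinCoset U) :
    ∑' e : FinCoset U, D.kfin c e * E.kfin e d = (D * E).kfin c d := by
  set S := D.S ∪ E.S
  have hDe := D.kfin_eq_of_subset (Finset.subset_union_left : D.S ⊆ S)
  have hEe := E.kfin_eq_of_subset (Finset.subset_union_right : E.S ⊆ S)
  by_cases hout : ∀ v ∉ S, c.1 v = d.1 v
  swap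
  · rw [(D * E).kfin_eq_of_subset (S := S) subset_rfl, if_neg hout]
    refine (tsum_congr fun e => ?_).trans tsum_zero
    rw [hDe, hEe]
    split_ifs with h1 h2 <;> try simp
    exact absurd (fun v hv => (h1 v hv).trans (h2 v hv)) hout
  rw [(D * E).kfin_eq_of_subset (S := S) subset_rfl, if_pos hout]
  let put : (∀ v : S, G2 L ⧸ U.loc v.1) → FinCoset U := fun f =>
    ⟨fun v => if h : v ∈ S then f ⟨v, h⟩ else c.1 v, by
      show ∀ᶠ v in cofinite, _
      filter_upwards [c.2, S.finite_toSet.compl_mem_cofinite] with v hv hv'
      rw [dif_neg (by simpa using hv')]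
      exact hv⟩
  have put_out : ∀ (f : ∀ v : S, G2 L ⧸ U.loc v.1) v, v ∉ S → (put f).1 v = c.1 v := fun f v hv =>
    dif_neg (c := v ∈ S) (t := fun h => f ⟨v, h⟩) (e := fun _ => c.1 v) hv
  have hput : Function.Injective put := fun f g h => funext fun v => by
    have := congrFun (congrArg Subtype.val h) v.1
    simpa [put, v.2] using this
  let t : ∀ v : S, Finset (G2 L ⧸ U.loc v.1) := fun v => ((D.fin v.1).row (c.1 v.1)).toFinset
  rw [tsum_eq_sum (s := (Fintype.piFinset t).map ⟨put, hput⟩) fun e he => ?_, Finset.sum_map]
  · have hterm : ∀ f : (∀ v : S, G2 L ⧸ U.loc v.1), D.kfin c (put f) * E.kfin (put f) d =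
        ∏ v : S, (D.fin v.1).k (c.1 v.1) (f v) * (E.fin v.1).k (f v) (d.1 v.1) := fun f => by
      rw [hDe, hEe, if_pos fun v hv => (put_out f v hv).symm,
        if_pos fun v hv => (put_out f v hv).trans (hout v hv),
        ← Finset.prod_mul_distrib,
        ← Finset.prod_coe_sort S]
      exact Finset.prod_congr rfl fun v _ => by simp [put, v.2]
    simp only [Function.Embedding.coeFn_mk, hterm]
    rw [← Finset.prod_univ_sum t fun v e => (D.fin v.1).k (c.1 v.1) e * (E.fin v.1).k e (d.1 v.1),
      ← Finset.prod_coe_sort S]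
    refine Finset.prod_congr rfl fun v _ => ?_
    rw [mul_fin, LocKer.mul_k]
    refine (tsum_eq_sum fun e he => ?_).symm
    rw [show (D.fin v.1).k (c.1 v.1) e = 0 by simpa [t] using he, zero_mul]
  · by_contra hne
    obtain ⟨h1, h2⟩ := mul_ne_zero_iff.mp hne
    rw [hDe] at h1
    split_ifs at h1 with hc
    · refine he (Finset.mem_map.mpr ⟨fun v => e.1 v.1, Fintype.mem_piFinset.mpr fun v => ?_, ?_⟩)
      · simpa [t] using Finset.prod_ne_zero_iff.mp h1 v.1 v.2
      · refine FinCoset.ext fun v => ?_
        show (if h : v ∈ S then _ else c.1 v) = e.1 v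
        by_cases hv : v ∈ S
        · rw [dif_pos hv]
        · rw [dif_neg hv]
          exact hc v hv
    · exact h1 rfl

/-- The composite of the point kernels of two product data is that of their componentwise
product. -/
theorem toPtKer_comp {N : ℕ} (hN : ∀ c, (D.toPtKer.nbr c).card ≤ N) :
    (D.toPtKer.comp E.toPtKer hN).k = (D * E).toPtKer.k := by
  funext x z
  show ∫ y, D.toPtKer.k x y * E.toPtKer.k y z ∂Space.vol U = _
  have hm : Measurable fun y => E.toPtKer.k y z :=
    E.toPtKer.meas.comp (f := fun y : Space U => (y, z)) (measurable_id.prodMk measurable_const)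
  have hi := D.toPtKer.integrable_row x hm fun y => E.toPtKer.bound y z
  rw [Space.vol, integral_prod_symm _ (Space.vol.eq_def U ▸ hi),
    integral_countable (Space.vol.eq_def U ▸ hi).integral_prod_right]
  simp only [measureReal_def, Measure.count_singleton, ENNReal.toReal_one, one_smul, toPtKer_k]
  rw [← D.kinf_mul E x.1 z.1, ← D.kfin_mul E x.2 z.2, ← tsum_mul_left]
  refine tsum_congr fun e => ?_
  rw [← integral_mul_const]
  exact integral_congr_ae (ae_of_all _ fun p => by ring)

end FermatAgent.LT.KerData
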