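import Mathlib
import Fermat.Agent.LT.Descent.Spec.DataAlg
import Fermat.Agent.LT.Descent.KerAut

/-!
# The action and the automorphisation of product kernels

They act on functions; a composite automorphises like its second factor.
-/

set_option autoImplicit false

noncomputable section

open Matrix IsDedekindDomain NumberField Filter MeasureTheory
open scoped MatrixGroups ENNReal ComplexConjugate InnerProductSpace

namespace FermatAgent.LT

variable {L : Type*} [Field L] [NumberField L] {U : Level L}

namespace PtKer

/-- The automorphisation depends only on the kernel. -/
lemma aut_congr {A B : PtKer U} (h : A.k = B.k) : A.aut = B.aut := by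
  funext x y
  simp [PtKer.aut, h]

/-- A composite automorphises like its second factor. -/
theorem aut_comp_left (A B : PtKer U) {N : ℕ} (hN : ∀ c, (A.nbr c).card ≤ N) {CB : ℝ}
    (hCB : ∀ x y, ‖B.aut x y‖ ≤ CB) {s : Set (Space U)}
    (hs : IsFundamentalDomain (G2 L) s (Space.vol U)) (x z : Space U) :
    (A.comp B hN).aut x z = ∫ y, A.k x y * B.aut y z ∂Space.vol U := by
  have hm : Measurable fun y => B.aut y z :=
    B.measurable_aut.comp (f := fun y : Space U => (y, z)) (measurable_id.prodMk measurable_const)
  rw [A.aut_comp B hN hCB hs, A.integral_row_eq_setIntegral hm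
    (fun g y => B.aut_smul_left g y z) (hCB · z) hs x]

/-- The action on functions. -/
def act (A : PtKer U) (f : Space U → ℂ) (x : Space U) : ℂ := ∫ y, A.k x y * f y ∂Space.vol U

/-- The action depends only on the kernel. -/
lemma act_congr {A B : PtKer U} (h : A.k = B.k) : A.act = B.act := by
  funext f x
  simp [act, h]

/-- The action preserves invariance. -/
lemma act_smul (A : PtKer U) {f : Space U → ℂ} (hinv : ∀ (g : G2 L) y, f (g • y) = f y) (g : G2 L)
    (x : Space U) : A.act f (g • x) = A.act f x := by
  unfold act
  rw [← (Space.measurePreserving_smul g).integral_comp (measurableEmbedding_smul g)]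
  exact integral_congr_ae (ae_of_all _ fun y => by simp [A.inv, hinv])

end PtKer

namespace KerData

variable (s : Set (Space U))

/-- The square integrable functions of the domain. -/
abbrev H := Lp ℂ 2 ((Space.vol U).restrict s)

end KerData

end FermatAgent.LT
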