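import Mathlib
import Fermat.Agent.LT.Descent.Spec.Op
import Fermat.Agent.LT.Descent.Spec.LocLin

/-!
# Real kernels and linearity in one component

Radial profiles give real kernels invariant under the flip; product kernels with real components at
infinity and hermitian ones at the finite places are hermitian, and are linear in each component.
-/

set_option autoImplicit false

noncomputable section

open Matrix IsDedekindDomain NumberField Filter MeasureTheory
open scoped MatrixGroups ENNReal ComplexConjugate ContDiff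

namespace FermatAgent.LT

namespace InfKer

/-- Kernels with real values. -/
def IsReal (A : InfKer) : Prop := ∀ p q, conj (A.k p q) = A.k p q

lemma IsReal.herm {A : InfKer} (h : A.IsReal) (p q : H3) : conj (A.k q p) = A.k p q := by
  rw [h, A.k_symm]

/-- Compositions of real kernels are real. -/
lemma IsReal.comp {A B : InfKer} (hA : A.IsReal) (hB : B.IsReal) : (A.comp B).IsReal :=
  fun p r => by
  simp only [comp_k]
  rw [← integral_conj]
  exact integral_congr_ae (ae_of_all _ fun q => by simp [hA p q, hB q r])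

end InfKer

/-- Profile kernels are real. -/
lemma Profile.isReal (P : Profile) : P.ker.IsReal := fun p q => by simp [Profile.ker]

/-- Profile kernels are flip invariant. -/
lemma Profile.isFlip (P : Profile) : P.ker.IsFlip := fun p q => by
  simp [Profile.ker, H3.coshDist_flip]

variable {L : Type*} [Field L] [NumberField L] {U : Level L}

namespace KerData

/-- Hermitian components give a hermitian kernel. -/
lemma conj_toPtKer' {D : KerData U} (hi : ∀ w, (D.inf w).IsReal) (hf : ∀ v, (D.fin v).IsHerm)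
    (x y : Space U) : conj (D.toPtKer.k y x) = D.toPtKer.k x y :=
  D.conj_toPtKer (fun w => (hi w).herm) (fun v _ => hf v) x y

open Classical in
/-- Linearity in one component at infinity. -/
lemma lin_inf {D A B : KerData U} (w₀ : InfinitePlace L) (c : ℂ)
    (h₀ : ∀ p q, (D.inf w₀).k p q = (A.inf w₀).k p q + c * (B.inf w₀).k p q)
    (hA : ∀ w, w ≠ w₀ → (A.inf w).k = (D.inf w).k) (hB : ∀ w, w ≠ w₀ → (B.inf w).k = (D.inf w).k)
    (hfA : ∀ v, A.fin v = D.fin v) (hfB : ∀ v, B.fin v = D.fin v) (x y : Space U) :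
    D.toPtKer.k x y = A.toPtKer.k x y + c * B.toPtKer.k x y := by
  have hk : ∀ E : KerData U, E.kinf x.1 y.1 = (E.inf w₀).k (x.1 w₀) (y.1 w₀) *
      ∏ w ∈ Finset.univ.erase w₀, (E.inf w).k (x.1 w) (y.1 w) := fun E =>
    (Finset.mul_prod_erase _ _ (Finset.mem_univ w₀)).symm
  have hf : ∀ E : KerData U, (∀ v, E.fin v = D.fin v) → E.kfin x.2 y.2 = D.kfin x.2 y.2 := by
    intro E hE
    rw [E.kfin_eq_of_subset (S := E.S ∪ D.S) Finset.subset_union_left,
      D.kfin_eq_of_subset (S := E.S ∪ D.S) Finset.subset_union_right]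
    simp only [hE]
  have hr : ∀ E : KerData U, (∀ w, w ≠ w₀ → (E.inf w).k = (D.inf w).k) →
      ∏ w ∈ Finset.univ.erase w₀, (E.inf w).k (x.1 w) (y.1 w) =
        ∏ w ∈ Finset.univ.erase w₀, (D.inf w).k (x.1 w) (y.1 w) := fun E hE =>
    Finset.prod_congr rfl fun w hw => by rw [hE w (Finset.ne_of_mem_erase hw)]
  simp only [toPtKer_k, hk, hr A hA, hr B hB, hf A hfA, hf B hfB, h₀]
  ring

open Classical in
/-- Linearity in one finite component. -/
lemma lin_fin {D A B : KerData U} (v₀ : HeightOneSpectrum (𝓞 L)) (c : ℂ)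
    (h₀ : D.fin v₀ = (A.fin v₀).lin (B.fin v₀) c)
    (hiA : ∀ w, (A.inf w).k = (D.inf w).k) (hiB : ∀ w, (B.inf w).k = (D.inf w).k)
    (hA : ∀ v, v ≠ v₀ → A.fin v = D.fin v) (hB : ∀ v, v ≠ v₀ → B.fin v = D.fin v) (x y : Space U) :
    D.toPtKer.k x y = A.toPtKer.k x y + c * B.toPtKer.k x y := by
  set S := insert v₀ (D.S ∪ (A.S ∪ B.S))
  have hsD : D.S ⊆ S := Finset.subset_union_left.trans (Finset.subset_insert _ _)
  have hsA : A.S ⊆ S := (Finset.subset_union_left.trans Finset.subset_union_right).trans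
    (Finset.subset_insert _ _)
  have hsB : B.S ⊆ S := (Finset.subset_union_right.trans Finset.subset_union_right).trans
    (Finset.subset_insert _ _)
  simp only [toPtKer_k, kinf, hiA, hiB]
  rw [D.kfin_eq_of_subset hsD, A.kfin_eq_of_subset hsA, B.kfin_eq_of_subset hsB]
  by_cases h : ∀ v ∉ S, x.2.1 v = y.2.1 v
  · simp only [if_pos h]
    have hmem : v₀ ∈ S := Finset.mem_insert_self _ _
    have hr : ∀ E : KerData U, (∀ v, v ≠ v₀ → E.fin v = D.fin v) →
        ∏ v ∈ S.erase v₀, (E.fin v).k (x.2.1 v) (y.2.1 v) =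
          ∏ v ∈ S.erase v₀, (D.fin v).k (x.2.1 v) (y.2.1 v) := fun E hE =>
      Finset.prod_congr rfl fun v hv => by rw [hE v (Finset.ne_of_mem_erase hv)]
    rw [← Finset.mul_prod_erase _ _ hmem, ← Finset.mul_prod_erase _ _ hmem,
      ← Finset.mul_prod_erase _ _ hmem, hr A hA, hr B hB, h₀, LocKer.lin_k]
    ring
  · simp [if_neg h]

end KerData

end FermatAgent.LT
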