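import Mathlib
import Fermat.Agent.LT.Descent.Spec.Bdd

/-!
# Modifications of a base kernel in finitely many components

The modifications multiply componentwise, and a modified composite is the composite with the
modified first factor.
-/

set_option autoImplicit false

noncomputable section

open Matrix IsDedekindDomain NumberField Filter MeasureTheory
open scoped MatrixGroups ENNReal ComplexConjugate

namespace FermatAgent.LT

/-- Kernel functions of invariant kernels. -/
def RK : Type := {f : H3 → H3 → ℂ // ∃ A : InfKer, A.k = f}

namespace InfKer

/-- The kernel function. -/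
def rk (A : InfKer) : RK := ⟨A.k, A, rfl⟩

/-- Radial kernels are equal iff the kernels are. -/
lemma rk_eq {A B : InfKer} : A.rk = B.rk ↔ A.k = B.k := Subtype.ext_iff

end InfKer

instance : Mul RK := ⟨fun a b => (a.2.choose.comp b.2.choose).rk⟩

/-- Radial kernels compose. -/
lemma InfKer.rk_comp (A B : InfKer) : (A.comp B).rk = A.rk * B.rk :=
  Subtype.ext (InfKer.comp_congr A.rk.2.choose_spec.symm B.rk.2.choose_spec.symm)

lemma RK.exists_rep (a : RK) : ∃ A : InfKer, A.rk = a := ⟨a.2.choose, Subtype.ext a.2.choose_spec⟩

instance : CommSemigroup RK where
  mul_assoc a b c := by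
    obtain ⟨A, rfl⟩ := a.exists_rep
    obtain ⟨B, rfl⟩ := b.exists_rep
    obtain ⟨C, rfl⟩ := c.exists_rep
    simp only [← InfKer.rk_comp]
    exact InfKer.rk_eq.mpr (funext fun p => funext fun r => InfKer.comp_assoc A B C p r)
  mul_comm a b := by
    obtain ⟨A, rfl⟩ := a.exists_rep
    obtain ⟨B, rfl⟩ := b.exists_rep
    simp only [← InfKer.rk_comp]
    exact InfKer.rk_eq.mpr (funext fun p => funext fun r => InfKer.comp_comm A B p r)

variable {L : Type*} [Field L] [NumberField L] {U : Level L}

/-- A modification in finitely many components; absent components stand for the identity. -/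
structure Mods (U : Level L) where
  /-- at the infinite places -/
  q : InfinitePlace L → Option InfKer
  /-- at the finite places -/
  A : ∀ v, LocKer U v
  /-- a set outside which nothing is modified -/
  S : Finset (HeightOneSpectrum (𝓞 L))
  A_one : ∀ v ∉ S, A v = 1

namespace Mods

/-- Applying an optional modification. -/
def app (q : Option InfKer) (k : InfKer) : InfKer := q.elim k fun a => a.comp k

/-- Composition of optional modifications. -/
def ocomp : Option InfKer → Option InfKer → Option InfKer
  | some a, some b => some (a.comp b)
  | some a, none => some a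
  | none, b => b

instance : One (Mods U) where
  one := { q := fun _ => none, A := fun _ => 1, S := ∅, A_one := fun _ _ => rfl }

open Classical in
instance : Mul (Mods U) where
  mul m n :=
    { q := fun w => ocomp (m.q w) (n.q w)
      A := fun v => m.A v * n.A v
      S := m.S ∪ n.S
      A_one := fun v hv => by
        rw [Finset.mem_union, not_or] at hv
        rw [m.A_one v hv.1, n.A_one v hv.2, _root_.one_mul] }

@[simp] lemma one_A (v : HeightOneSpectrum (𝓞 L)) : (1 : Mods U).A v = 1 := rfl

@[simp] lemma one_q (w : InfinitePlace L) : (1 : Mods U).q w = none := rfl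

lemma mul_A (m n : Mods U) (v : HeightOneSpectrum (𝓞 L)) : (m * n).A v = m.A v * n.A v := rfl

/-- Archimedean components multiply. -/
lemma mul_q (m n : Mods U) (w : InfinitePlace L) : (m * n).q w = ocomp (m.q w) (n.q w) := rfl

open Classical in
/-- Replace one component at infinity. -/
def setInf (m : Mods U) (w : InfinitePlace L) (a : Option InfKer) : Mods U :=
  { m with q := Function.update m.q w a }

open Classical in
/-- Replace one finite component. -/
def setFin (m : Mods U) (v : HeightOneSpectrum (𝓞 L)) (a : LocKer U v) : Mods U where
  q := m.q
  A := Function.update m.A v a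
  S := insert v m.S
  A_one v' hv' := by
    rw [Finset.mem_insert, not_or] at hv'
    rw [Function.update_of_ne hv'.1, m.A_one v' hv'.2]

open Classical in
/-- The modified base. -/
def ext (m : Mods U) (D₀ : KerData U) : KerData U where
  inf w := app (m.q w) (D₀.inf w)
  fin v := m.A v * D₀.fin v
  S := m.S ∪ D₀.S
  fin_eq_one v hv := by
    rw [Finset.mem_union, not_or] at hv
    rw [m.A_one v hv.1, D₀.fin_eq_one v hv.2, _root_.one_mul]

/-- The archimedean components of a modified kernel. -/
lemma ext_inf (m : Mods U) (D₀ : KerData U) (w : InfinitePlace L) :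
    (m.ext D₀).inf w = app (m.q w) (D₀.inf w) := rfl

/-- The finite components of a modified kernel. -/
lemma ext_fin (m : Mods U) (D₀ : KerData U) (v : HeightOneSpectrum (𝓞 L)) :
    (m.ext D₀).fin v = m.A v * D₀.fin v := rfl

/-- A base which is a composite passes this on to its modifications. -/
theorem ext_comp (m : Mods U) (E D : KerData U) :
    (m.ext (E * D)).toPtKer.k = (m.ext E * D).toPtKer.k := by
  refine KerData.toPtKer_congr (fun w => InfKer.rk_eq.mp ?_) fun v => (mul_assoc _ _ _).symm
  simp only [ext_inf, KerData.mul_inf, InfKer.rk_comp]
  rcases m.q w with _ | a <;> simp only [app, Option.elim, InfKer.rk_comp]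
  ac_rfl

end Mods

end FermatAgent.LT
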