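import Mathlib
import Fermat.Agent.LT.Descent.Spec.Mods
import Fermat.Agent.LT.Base.Local

/-!
# The action of product kernels on bounded functions

Products act as composites, and acting in one component of the argument is acting by the kernel
modified in that component.
-/

set_option autoImplicit false

noncomputable section

open Matrix IsDedekindDomain NumberField Filter MeasureTheory
open scoped MatrixGroups ENNReal ComplexConjugate

namespace FermatAgent.LT

variable {L : Type*} [Field L] [NumberField L] {U : Level L}

namespace KerData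

variable (D E : KerData U)

/-- A bound for the volume of the rows. -/
def rowVol : ℝ :=
  (∏ w ∈ D.S, ((D.fin w).row (QuotientGroup.mk 1)).toFinset.card : ℕ) *
    (H3.vol {q | H3.coshDist H3.base q ≤ D.toPtKer.ρ}).toReal ^ Fintype.card (InfinitePlace L)

lemma vol_rowBox_le (x : Space U) : (Space.vol U).real (D.toPtKer.rowBox x) ≤ D.rowVol :=
  D.toPtKer.real_vol_rowBox_le D.card_nbr_le x

variable {f : Space U → ℂ}

/-- The mass of a row against a bounded function. -/
lemma integral_norm_row_le {C : ℝ} (hC : ∀ y, ‖f y‖ ≤ C) (x : Space U) :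
    ∫ y, ‖D.toPtKer.k x y * f y‖ ∂Space.vol U ≤ D.toPtKer.C * C * D.rowVol := by
  have hC0 : 0 ≤ C := (norm_nonneg _).trans (hC x)
  rw [← setIntegral_eq_integral_of_forall_compl_eq_zero (s := D.toPtKer.rowBox x) fun y hy => by
    by_contra h
    exact hy (D.toPtKer.mem_rowBox (left_ne_zero_of_mul (norm_ne_zero_iff.mp h)))]
  refine (Real.le_norm_self _).trans ((norm_setIntegral_le_of_norm_le_const
    (D.toPtKer.vol_rowBox_lt_top x) (C := D.toPtKer.C * C) fun y _ => ?_).trans ?_)
  · rw [norm_norm, norm_mul]
    exact mul_le_mul (D.toPtKer.bound x y) (hC y) (norm_nonneg _) D.toPtKer.C_nonneg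
  · exact mul_le_mul_of_nonneg_left (D.vol_rowBox_le x) (mul_nonneg D.toPtKer.C_nonneg hC0)

/-- The action is bounded. -/
lemma norm_act_le {C : ℝ} (hC : ∀ y, ‖f y‖ ≤ C) (x : Space U) :
    ‖D.toPtKer.act f x‖ ≤ D.toPtKer.C * C * D.rowVol :=
  (norm_integral_le_integral_norm _).trans (D.integral_norm_row_le hC x)

/-- The action is measurable. -/
lemma measurable_act (hf : Measurable f) : Measurable (D.toPtKer.act f) := by
  have h : StronglyMeasurable (Function.uncurry fun x y => D.toPtKer.k x y * f y) :=
    (D.toPtKer.meas.mul (hf.comp measurable_snd)).stronglyMeasurable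
  exact h.integral_prod_right.measurable

/-- A row of a bounded family of rows against a bounded function is integrable on the product. -/
lemma integrable_prod_row {α : Type*} [MeasurableSpace α] {ν : Measure α}
    (hf : Measurable f) {C : ℝ} (hC : ∀ y, ‖f y‖ ≤ C) {a : α → ℂ} (ha : Measurable a)
    (hai : Integrable a ν) {y : α → Space U} (hy : Measurable y) :
    Integrable (Function.uncurry fun p z => a p * (D.toPtKer.k (y p) z * f z))
      (ν.prod (Space.vol U)) := by
  have mD : Measurable fun p : α × Space U => D.toPtKer.k (y p.1) p.2 :=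
    D.toPtKer.meas.comp (f := fun p : α × Space U => (y p.1, p.2))
      ((hy.comp measurable_fst).prodMk measurable_snd)
  have mf : Measurable fun p : α × Space U => f p.2 := hf.comp measurable_snd
  show Integrable (fun p : α × Space U => a p.1 * (D.toPtKer.k (y p.1) p.2 * f p.2)) _
  have ma : Measurable fun p : α × Space U => a p.1 := ha.comp measurable_fst
  refine (integrable_prod_iff (ma.mul (mD.mul mf)).aestronglyMeasurable).mpr
    ⟨ae_of_all _ fun p => (D.toPtKer.integrable_row (y p) hf hC).const_mul (a p), ?_⟩
  simp only [Pi.mul_apply, norm_mul (a _), integral_const_mul]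
  refine Integrable.mono' (g := fun p => ‖a p‖ * (D.toPtKer.C * C * D.rowVol))
    (hai.norm.mul_const _) ?_ (ae_of_all _ fun p => ?_)
  · have h : StronglyMeasurable (Function.uncurry fun p z => ‖D.toPtKer.k (y p) z * f z‖) :=
      (show Measurable fun p : α × Space U => ‖D.toPtKer.k (y p.1) p.2 * f p.2‖ from
        (mD.mul mf).norm).stronglyMeasurable
    exact (ha.norm.mul h.integral_prod_right.measurable).aestronglyMeasurable
  · rw [norm_mul, norm_norm, Real.norm_of_nonneg (integral_nonneg fun _ => norm_nonneg _)]
    exact mul_le_mul_of_nonneg_left (D.integral_norm_row_le hC _) (norm_nonneg _)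

/-- Acting by a modified kernel in one variable and then by a kernel is acting by the composite. -/
theorem act_mul (hf : Measurable f) {C : ℝ} (hC : ∀ y, ‖f y‖ ≤ C) (x : Space U) :
    (D * E).toPtKer.act f x = D.toPtKer.act (E.toPtKer.act f) x := by
  have hC0 : 0 ≤ C := (norm_nonneg _).trans (hC x)
  have hint : Integrable (Function.uncurry fun y z => D.toPtKer.k x y * (E.toPtKer.k y z * f z))
      ((Space.vol U).prod (Space.vol U)) :=
    E.integrable_prod_row (a := fun y => D.toPtKer.k x y) hf hC
      (D.toPtKer.meas.comp measurable_prodMk_left)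
      (by simpa using D.toPtKer.integrable_row x (f := fun _ => (1 : ℂ)) measurable_const (C := 1)
            (fun _ => by simp)) measurable_id
  have e := congrFun (congrFun (D.toPtKer_comp E D.card_nbr_le) x)
  show ∫ z, (D * E).toPtKer.k x z * f z ∂Space.vol U = _
  calc ∫ z, (D * E).toPtKer.k x z * f z ∂Space.vol U
      = ∫ z, ∫ y, D.toPtKer.k x y * (E.toPtKer.k y z * f z) ∂Space.vol U ∂Space.vol U := by
        refine integral_congr_ae (ae_of_all _ fun z => ?_)
        simp only [← e z, ← mul_assoc, integral_mul_const]
        rfl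
    _ = _ := by
        rw [← integral_integral_swap hint]
        exact integral_congr_ae (ae_of_all _ fun y => integral_const_mul _ _)

end KerData

/-- Apply an invariant kernel at one infinite place. -/
def infOp (w : InfinitePlace L) (q : InfKer) (φ : Space U → ℂ) (x : Space U) : ℂ :=
  open Classical in ∫ p, q.k (x.1 w) p * φ (Function.update x.1 w p, x.2) ∂H3.vol

/-- The radial operator is the archimedean operator. -/
lemma radialOp_eq_infOp (w : InfinitePlace L) {k : H3 → H3 → ℝ} {q : InfKer}
    (h : ∀ a b, q.k a b = (k a b : ℂ)) (φ : Space U → ℂ) (x : Space U) :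
    radialOp w k φ x = infOp w q φ x := by
  simp only [radialOp, infOp, h]

/-- Sum a function against a local kernel in one finite component. -/
def finOp {v : HeightOneSpectrum (𝓞 L)} (A : LocKer U v) (φ : Space U → ℂ) (x : Space U) : ℂ :=
  ∑ d ∈ (A.row (x.2.1 v)).toFinset, A.k (x.2.1 v) d * φ (x.1, x.2.update v d)

/-- The Hecke kernel gives the Hecke operator. -/
lemma finOp_hecke {v : HeightOneSpectrum (𝓞 L)} (hv : U.loc v = locK v) (φ : Space U → ℂ)
    (x : Space U) : finOp (LocKer.hecke hv) φ x = heckeOp v φ x := by
  rw [finOp, ← LocKer.tsum_row_eq, LocKer.tsum_hecke]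
  rfl

namespace FinCoset

open Classical in
/-- The updated component. -/
lemma update_val_self (c : FinCoset U) (v : HeightOneSpectrum (𝓞 L)) (d : G2 L ⧸ U.loc v) :
    (c.update v d).1 v = d := by
  show Function.update c.1 v d v = d
  rw [Function.update_self]

open Classical in
/-- The other components are unchanged. -/
lemma update_val_ne (c : FinCoset U) {v u : HeightOneSpectrum (𝓞 L)} (h : u ≠ v)
    (d : G2 L ⧸ U.loc v) : (c.update v d).1 u = c.1 u := by
  show Function.update c.1 v d u = _
  rw [Function.update_of_ne h]

end FinCoset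

namespace Mods

variable (D : KerData U)

open Classical in
/-- Applying a kernel at one infinite place after a kernel is acting by the kernel modified
there. -/
theorem infOp_act (w : InfinitePlace L) (q : InfKer) {f : Space U → ℂ} (hf : Measurable f) {C : ℝ}
    (hC : ∀ y, ‖f y‖ ≤ C) (x : Space U) :
    infOp w q (D.toPtKer.act f) x =
      (((1 : Mods U).setInf w (some q)).ext D).toPtKer.act f x := by
  set E := ((1 : Mods U).setInf w (some q)).ext D
  have hC0 : 0 ≤ C := (norm_nonneg _).trans (hC x)
  set y : H3 → Space U := fun p => (Function.update x.1 w p, x.2)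
  have hy : Measurable y := (measurable_update x.1).prodMk measurable_const
  have hint : Integrable (Function.uncurry fun p z => q.k (x.1 w) p * (D.toPtKer.k (y p) z * f z))
      (H3.vol.prod (Space.vol U)) :=
    D.integrable_prod_row (a := fun p => q.k (x.1 w) p) hf hC
      (q.meas.comp measurable_prodMk_left)
      (by simpa using q.integrable_row (x.1 w) (f := fun _ => (1 : ℂ)) measurable_const (M := 1)
            (fun _ => by simp)) hy
  have hfin : ∀ c d : FinCoset U, E.kfin c d = D.kfin c d := by
    intro c d
    rw [E.kfin_eq_of_subset (S := E.S) subset_rfl, D.kfin_eq_of_subset (S := E.S)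
      Finset.subset_union_right]
    simp only [E, ext_fin, setInf, one_A, _root_.one_mul]
    try congr 1
  have key : ∀ z : Space U, E.toPtKer.k x z = ∫ p, q.k (x.1 w) p * D.toPtKer.k (y p) z ∂H3.vol := by
    intro z
    have h1 : ∀ p, D.toPtKer.k (y p) z = (D.inf w).k p (z.1 w) *
        ((∏ w' ∈ Finset.univ.erase w, (D.inf w').k (x.1 w') (z.1 w')) * D.kfin x.2 z.2) :=
      fun p => by
      rw [KerData.toPtKer_k, KerData.kinf, ← Finset.mul_prod_erase _ _ (Finset.mem_univ w),
        mul_assoc]
      congr 1
      · simp [y]
      · congr 1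
        exact Finset.prod_congr rfl fun w' hw' => by simp [y, Finset.ne_of_mem_erase hw']
    simp only [h1, ← mul_assoc (q.k _ _), integral_mul_const]
    rw [KerData.toPtKer_k, KerData.kinf, ← Finset.mul_prod_erase _ _ (Finset.mem_univ w), hfin,
      mul_assoc]
    congr 1
    · simp only [E, ext_inf, setInf, Function.update_self, app, Option.elim, InfKer.comp_k]
    · congr 1
      exact Finset.prod_congr rfl fun w' hw' => by
        simp [E, ext_inf, setInf, Finset.ne_of_mem_erase hw', app]
  show ∫ p, q.k (x.1 w) p * ∫ z, D.toPtKer.k (y p) z * f z ∂Space.vol U ∂H3.vol =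
    ∫ z, E.toPtKer.k x z * f z ∂Space.vol U
  simp only [← integral_const_mul, key, ← integral_mul_const, mul_assoc]
  exact integral_integral_swap hint

open Classical in
/-- The finite part of a kernel modified at a place is a sum over the row of the modification. -/
theorem kfin_setFin (v : HeightOneSpectrum (𝓞 L)) (A : LocKer U v)
    (c e : FinCoset U) :
    (((1 : Mods U).setFin v A).ext D).kfin c e =
      ∑ d ∈ (A.row (c.1 v)).toFinset, A.k (c.1 v) d * D.kfin (c.update v d) e := by
  set E := ((1 : Mods U).setFin v A).ext D
  set S := insert v D.S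
  have hE : E.S ⊆ S := by
    intro u hu
    simp only [E, ext, setFin, Finset.mem_union, Finset.mem_insert] at hu
    rcases hu with (rfl | h) | h
    · exact Finset.mem_insert_self _ _
    · exact absurd h (Finset.notMem_empty u)
    · exact Finset.mem_insert_of_mem h
  have hD : D.S ⊆ S := Finset.subset_insert _ _
  rw [E.kfin_eq_of_subset hE]
  simp only [D.kfin_eq_of_subset hD]
  have hout : ∀ d u, u ∉ S → (c.update v d).1 u = c.1 u := fun d u hu =>
    c.update_val_ne (fun h' => hu (by rw [h']; exact Finset.mem_insert_self _ _)) d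
  by_cases h : ∀ u ∉ S, c.1 u = e.1 u
  · rw [if_pos h]
    rw [Finset.sum_congr rfl fun d _ => by
      rw [if_pos (fun u hu => (hout d u hu).trans (h u hu) :
        ∀ u ∉ S, (c.update v d).1 u = e.1 u)]]
    have hmem : v ∈ S := Finset.mem_insert_self _ _
    rw [← Finset.mul_prod_erase _ _ hmem]
    set P := ∏ u ∈ S.erase v, (E.fin u).k (c.1 u) (e.1 u)
    have hP : ∀ d, ∏ u ∈ S, (D.fin u).k ((c.update v d).1 u) (e.1 u) =
        (D.fin v).k d (e.1 v) * P := fun d => by
      rw [← Finset.mul_prod_erase _ _ hmem]
      congr 1
      · rw [show (c.update v d).1 v = d from c.update_val_self v d]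
      · refine Finset.prod_congr rfl fun u hu => ?_
        have hne := Finset.ne_of_mem_erase hu
        rw [show (c.update v d).1 u = c.1 u from c.update_val_ne hne d]
        simp [E, ext_fin, setFin, hne]
    simp only [hP, ← mul_assoc, ← Finset.sum_mul]
    congr 1
    rw [show E.fin v = A * D.fin v by simp [E, ext_fin, setFin],
      ← A.tsum_row_eq (fun d => (D.fin v).k d (e.1 v)), LocKer.mul_k]
  · rw [if_neg h]
    refine (Finset.sum_eq_zero fun d _ => ?_).symm
    rw [if_neg fun h' => h fun u hu => (hout d u hu).symm.trans (h' u hu), mul_zero]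

end Mods

end FermatAgent.LT
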