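import Mathlib
import Fermat.Agent.LT.Descent.Spec.Act
import Fermat.Agent.LT.Descent.E11
import Fermat.Agent.LT.Whit.Tame3
import Fermat.Agent.LT.Whit.Lift

/-!
# Tame cuspidal functions are those fixed by the idempotent

The idempotent is invariant under the normaliser on the right of its first variable and its sums
over the residual translations vanish, so a function fixed by it is tame cuspidal, and conversely.
-/

set_option autoImplicit false

noncomputable section

open Matrix IsDedekindDomain NumberField Filter MeasureTheory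
open FermatAgent.LT.Whit (locD locD_le locK1_le_locD)
open scoped MatrixGroups

namespace FermatAgent.LT

variable {L : Type*} [Field L] [NumberField L] {U : Level L} {v : HeightOneSpectrum (𝓞 L)}

/-- The normaliser acts trivially in the first variable. -/
lemma e11_mul_torus (hU : U.loc v = locK1 v) {δ : G2 L} (hδ : δ ∈ locD v) (g : G2 L)
    (d : G2 L ⧸ U.loc v) :
    (e11 hU).k (QuotientGroup.mk (g * δ)) d = (e11 hU).k (QuotientGroup.mk g) d := by
  classical
  induction d using QuotientGroup.induction_on with | H h =>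
  simp only [e11, LocKer.indF_mk (hU.trans_le (locK1_le_locD v)),
    LocKer.indF_mk (hU.trans_le (locK1_le v)), _root_.mul_inv_rev, mul_assoc]
  simp only [(locD v).mul_mem_cancel_left (inv_mem hδ),
    (locK v).mul_mem_cancel_left (inv_mem (locD_le v hδ))]

/-- A function fixed by the idempotent at a place of norm three lifts to a tame cuspidal
function. -/
theorem isTameCusp_of_finOp_e11 (h3 : Whit.IsThree v) (hU : U.loc v = locK1 v) {φ : Space U → ℂ}
    (hfix : ∀ x, finOp (e11 hU) φ x = φ x) : Whit.IsTameCusp v (Whit.liftF U φ) := by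
  classical
  have key : ∀ (y : InfPts L) (a : Whit.adelGrp L) (g : G2 L),
      Whit.liftF U φ y (a * Whit.atV v g) = ∑' d, (e11 hU).k (QuotientGroup.mk (a.1 v * g)) d *
        φ (y, (Whit.cls U a).update v d) := fun y a g => by
    show φ (y, Whit.cls U (a * Whit.atV v g)) = _
    rw [← hfix, finOp, ← LocKer.tsum_row_eq, Whit.cls_mul_atV]
    refine tsum_congr fun d => ?_
    simp only [FinCoset.update_val_self]
    congr 2
    exact Prod.ext rfl (FinCoset.ext fun u => by
      by_cases hu : u = v
      · subst hu; simp only [FinCoset.update_val_self]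
      · simp only [ne_eq, hu, not_false_eq_true, FinCoset.update_val_ne])
  constructor
  · intro δ hδ y a
    rw [key, show a = a * Whit.atV v 1 by rw [map_one, mul_one], key, map_one, mul_one, mul_one]
    exact tsum_congr fun d => by rw [e11_mul_torus hU hδ]
  · intro y a
    simp only [key]
    rw [← Summable.tsum_finsetSum fun b _ => ?_]
    · simp only [← Finset.sum_mul, sum_e11_residues h3 hU, zero_mul, tsum_zero]
    · refine summable_of_hasFiniteSupport
        (((e11 hU).row (QuotientGroup.mk (a.1 v * Whit.nB b))).subset fun d hd => ?_)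
      exact left_ne_zero_of_mul hd

/-- A tame cuspidal function at a place of norm three is fixed by the idempotent. -/
theorem finOp_e11_of_tame (h3 : Whit.IsThree v) (hU : U.loc v = locK1 v) {φ : Space U → ℂ}
    (ht : Whit.IsTameCusp v (Whit.liftF U φ)) (x : Space U) : finOp (e11 hU) φ x = φ x := by
  classical
  obtain ⟨y, c⟩ := x
  obtain ⟨a, rfl⟩ := Whit.cls_surjective c
  set G : G2 L ⧸ U.loc v → ℂ := fun d => φ (y, (Whit.cls U a).update v d)
  have hDle := hU.trans_le (locK1_le_locD v)
  have fD := relIndex_locD_ne_zero hU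
  have hG : ∀ k, G (QuotientGroup.mk (a.1 v * k)) = Whit.liftF U φ y (a * Whit.atV v k) :=
    fun k => by
    simp only [G, Whit.liftF, Whit.cls_mul_atV]
  have hfin : ∀ g, ∀ d ∉ (LocKer.finite_ball hDle fD (QuotientGroup.mk g)).toFinset,
      LocKer.indF (locD v) (QuotientGroup.mk g) d = 0 := fun g d hd => by
    by_contra h
    exact hd ((Set.Finite.mem_toFinset _).mpr h)
  have hball : ∀ k, ∑' d, LocKer.indF (locD v) (QuotientGroup.mk (a.1 v * k)) d * G d =
      (U.loc v).relIndex (locD v) * G (QuotientGroup.mk (a.1 v * k)) := by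
    intro k
    rw [tsum_eq_sum (s := (LocKer.finite_ball hDle fD (QuotientGroup.mk (a.1 v * k))).toFinset)
      fun d hd => by rw [hfin _ d hd, zero_mul]]
    rw [Finset.sum_congr rfl fun d hd => ?_, Finset.sum_const,
      ← Nat.card_eq_card_finite_toFinset, LocKer.card_ball hDle, nsmul_eq_mul]
    have h1 : LocKer.indF (locD v) (QuotientGroup.mk (a.1 v * k)) d ≠ 0 :=
      (Set.Finite.mem_toFinset _).mp hd
    induction d using QuotientGroup.induction_on with | H h =>
    rw [LocKer.indF_mk hDle] at h1
    split_ifs at h1 with hD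
    · rw [LocKer.indF_mk hDle, if_pos hD, one_mul]
      have hu : h = a.1 v * (k * ((a.1 v * k)⁻¹ * h)) := by group
      rw [hu, hG, hG, map_mul, ← mul_assoc]
      exact ht.inv _ hD y _
    · exact absurd rfl h1
  have hsplit : ∀ d, (e11 hU).k (QuotientGroup.mk (a.1 v)) d * G d =
      ((U.loc v).relIndex (locD v) : ℂ)⁻¹ *
      (LocKer.indF (locD v) (QuotientGroup.mk (a.1 v)) d * G d) -
        ((U.loc v).relIndex (locK v) : ℂ)⁻¹ *
          ∑ b ∈ Whit.residues v,
          LocKer.indF (locD v) (QuotientGroup.mk (a.1 v * Whit.nB b)) d * G d :=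
    fun d => by
      rw [← Finset.sum_mul, ← indF_locK_eq_sum h3 hU]
      simp only [e11]
      ring
  have hsum : ∀ g, Summable fun d => LocKer.indF (locD v) (QuotientGroup.mk g) d * G d := fun g =>
    LocKer.summable_indF_mul hDle fD _ G
  show ∑ d ∈ ((e11 hU).row (QuotientGroup.mk (a.1 v))).toFinset,
    (e11 hU).k (QuotientGroup.mk (a.1 v)) d * G d = _
  rw [← LocKer.tsum_row_eq, tsum_congr hsplit,
    ((hsum _).mul_left _).tsum_sub ((summable_sum fun b _ => hsum _).mul_left _), tsum_mul_left,
    tsum_mul_left, Summable.tsum_finsetSum fun b _ => hsum _]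
  have hz : ∑ b ∈ Whit.residues v,
      ∑' d, LocKer.indF (locD v) (QuotientGroup.mk (a.1 v * Whit.nB b)) d * G d = 0 := by
    simp only [hball, ← Finset.mul_sum, hG, ht.sum_zero, mul_zero]
  have h1 := hball 1
  rw [mul_one] at h1
  rw [hz, h1, mul_zero, sub_zero, ← mul_assoc, inv_mul_cancel₀ (Nat.cast_ne_zero.mpr fD), one_mul,
    ← mul_one (a.1 v), hG, map_one, mul_one]
  rfl

end FermatAgent.LT
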