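import Mathlib
import Fermat.Agent.LT.Descent.Indic
import Fermat.Agent.LT.Descent.Setting
import Fermat.Agent.LT.Descent.GlueingRet
import Fermat.Agent.LT.Whit.Adel

/-!
# The class function at a ramified place as a local kernel

The class function is invariant on both sides under the congruence subgroup, and supported on the
integral classes, so `(g, h) ↦ f (g⁻¹ h)` is a local kernel.
-/

set_option autoImplicit false

noncomputable section

open Matrix IsDedekindDomain NumberField
open scoped MatrixGroups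

namespace FermatAgent.LT.Ctx

variable {K : Type*} [Field K] [NumberField K] {U : Level K}
  {v : HeightOneSpectrum (𝓞 K)}

lemma smul_line_of_mem {u : G2 K} (hu : u ∈ locK1 v) {e : G2 K ⧸ locTame v 0}
    (he : (e.out : G2 K) ∈ locK v) : u • e = e := by
  conv_lhs => rw [← QuotientGroup.out_eq' e]
  conv_rhs => rw [← QuotientGroup.out_eq' e]
  rw [MulAction.Quotient.smul_mk, smul_eq_mul, QuotientGroup.eq, _root_.mul_inv_rev]
  exact locK1_le_locTame_zero v (Whit.locK1_conj he (inv_mem hu))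

open Classical in
/-- The class function is invariant on both sides under the congruence subgroup. -/
theorem ramFun_mul_mul {u u' : G2 K} (hu : u ∈ locK1 v) (hu' : u' ∈ locK1 v) (g : G2 K) :
    ramFun v (u * g * u') = ramFun v g := by
  have hmem : u * g * u' ∈ locK v ↔ g ∈ locK v := by
    rw [(locK v).mul_mem_cancel_right (locK1_le v hu'),
      (locK v).mul_mem_cancel_left (locK1_le v hu)]
  have hcube : g ∈ locK v → ∀ j ∈ locK v,
      (j ^ 3 * (u * g * u')⁻¹ ∈ locK1 v ↔ j ^ 3 * g⁻¹ ∈ locK1 v) := by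
    intro hg j hj
    have h := Whit.locK1_conj (inv_mem (pow_mem hj 3)) (inv_mem hu')
    rw [inv_inv] at h
    rw [show j ^ 3 * (u * g * u')⁻¹ = (j ^ 3 * u'⁻¹ * (j ^ 3)⁻¹) * (j ^ 3 * g⁻¹) * u⁻¹ by group,
      (locK1 v).mul_mem_cancel_right (inv_mem hu), (locK1 v).mul_mem_cancel_left h]
  unfold ramFun
  refine if_congr ⟨fun ⟨h, j, hj, h3⟩ => ⟨hmem.mp h, j, hj, (hcube (hmem.mp h) j hj).mp h3⟩,
    fun ⟨h, j, hj, h3⟩ => ⟨hmem.mpr h, j, hj, (hcube h j hj).mpr h3⟩⟩ ?_ rfl
  congr 3
  refine Nat.card_congr (Equiv.subtypeEquivRight fun e => and_congr_right fun he => ?_)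
  rw [mul_smul, mul_smul, smul_line_of_mem hu' he]
  refine ⟨fun h => ?_, fun h => by rw [h, smul_line_of_mem hu he]⟩
  have h' := congrArg (u⁻¹ • ·) h
  simp only [inv_smul_smul, smul_line_of_mem (inv_mem hu) he] at h'
  exact h'

/-- The class function is supported on the maximal compact group. -/
lemma ramFun_eq_zero {g : G2 K} (hg : g ∉ locK v) : ramFun v g = 0 :=
  if_neg fun h => hg h.1

/-- The class function at a ramified place as a local kernel. -/
def ramKer (hU : U.loc v = locK1 v) : LocKer U v where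
  k c d := ramFun v ((c.out : G2 K)⁻¹ * d.out)
  inv g c d := by
    obtain ⟨a, ha⟩ := QuotientGroup.mk_out_eq_mul (U.loc v) (g * c.out)
    obtain ⟨b, hb⟩ := QuotientGroup.mk_out_eq_mul (U.loc v) (g * d.out)
    have e : ∀ x : G2 K ⧸ U.loc v, g • x = QuotientGroup.mk (g * x.out) := fun x => by
      conv_lhs => rw [← QuotientGroup.out_eq' x]
      rw [MulAction.Quotient.smul_mk, smul_eq_mul]
    rw [e, e, ha, hb, show (g * c.out * (a : G2 K))⁻¹ * (g * d.out * (b : G2 K)) =
      (a : G2 K)⁻¹ * ((c.out : G2 K)⁻¹ * d.out) * b by group,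
      ramFun_mul_mul (hU ▸ inv_mem a.2) (hU ▸ b.2)]
  row c := (LocKer.finite_ball (hU.trans_le (locK1_le v))
      (by rw [hU]; exact relIndex_locK1_ne_zero v) c).subset fun d hd =>
    LocKer.mem_ball.mpr (by_contra fun h => hd (ramFun_eq_zero h))

/-- The class kernel on representatives. -/
lemma ramKer_mk (hU : U.loc v = locK1 v) (a b : G2 K) :
    (ramKer hU).k (QuotientGroup.mk a) (QuotientGroup.mk b) = ramFun v (a⁻¹ * b) := by
  obtain ⟨x, hx⟩ := QuotientGroup.mk_out_eq_mul (U.loc v) a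
  obtain ⟨y, hy⟩ := QuotientGroup.mk_out_eq_mul (U.loc v) b
  show ramFun v _ = _
  rw [hx, hy, show (a * (x : G2 K))⁻¹ * (b * (y : G2 K)) = (x : G2 K)⁻¹ * (a⁻¹ * b) * y by group,
    ramFun_mul_mul (hU ▸ inv_mem x.2) (hU ▸ y.2)]

end FermatAgent.LT.Ctx
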