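import Mathlib

/-!
# A simultaneous projector in a linear space of operators closed under products

Finitely many spaces carry a commuting family of symmetric operators with a target system of
eigenvalues; the projectors on the target spaces lie in every multiplicatively closed space of
tuples containing the family.
-/

set_option autoImplicit false

noncomputable section

open scoped InnerProductSpace

namespace FermatAgent.LT.Spec

variable {ι κ : Type*} [Fintype κ] {W : κ → Type*} [∀ j, NormedAddCommGroup (W j)]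
  [∀ j, InnerProductSpace ℂ (W j)] [∀ j, FiniteDimensional ℂ (W j)]

/-- The joint eigenspace. -/
def joint (a : ι → ∀ j, Module.End ℂ (W j)) (c : ι → ℂ) (j : κ) : Submodule ℂ (W j) :=
  ⨅ i, Module.End.eigenspace (a i j) (c i)

omit [Fintype κ] [∀ j, FiniteDimensional ℂ (W j)] in
/-- Membership in a joint eigenspace. -/
lemma mem_joint {a : ι → ∀ j, Module.End ℂ (W j)} {c : ι → ℂ} {j : κ} {f : W j} :
    f ∈ joint a c j ↔ ∀ i, a i j f = c i • f := by
  simp [joint]

/-- A finite subfamily already cuts out the joint eigenspaces. -/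
theorem exists_finset_joint (a : ι → ∀ j, Module.End ℂ (W j)) (c : ι → ℂ) :
    ∃ I : Finset ι, ∀ j (f : W j), (∀ i ∈ I, a i j f = c i • f) → f ∈ joint a c j := by
  classical
  let V : Finset ι → ∀ j, Submodule ℂ (W j) := fun I j =>
    ⨅ i ∈ I, Module.End.eigenspace (a i j) (c i)
  obtain ⟨I, hI⟩ := exists_minimal_of_wellFoundedLT (fun n : ℕ =>
    ∃ I : Finset ι, ∑ j, Module.finrank ℂ (V I j) = n) ⟨_, ∅, rfl⟩
  obtain ⟨I₀, hI₀⟩ := hI.1
  refine ⟨I₀, fun j f hf => mem_joint.mpr fun i => ?_⟩
  have hle : ∀ j, V (insert i I₀) j ≤ V I₀ j := fun j =>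
    biInf_mono fun k hk => Finset.mem_insert_of_mem hk
  have heq : V (insert i I₀) j = V I₀ j := by
    have hsum : ∑ j, Module.finrank ℂ (V I₀ j) ≤ ∑ j, Module.finrank ℂ (V (insert i I₀) j) := by
      rw [hI₀]
      refine hI.2 ⟨_, rfl⟩ ?_
      rw [← hI₀]
      exact Finset.sum_le_sum fun j _ => Submodule.finrank_mono (hle j)
    refine Submodule.eq_of_le_of_finrank_le (hle j) ?_
    by_contra hlt
    rw [not_le] at hlt
    exact absurd hsum (not_le.mpr (Finset.sum_lt_sum (fun j _ => Submodule.finrank_mono (hle j))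
      ⟨j, Finset.mem_univ j, hlt⟩))
  have hfV : f ∈ V I₀ j := by
    simpa [V, Module.End.mem_eigenspace_iff] using hf
  rw [← heq] at hfV
  simp only [V, Submodule.mem_iInf, Module.End.mem_eigenspace_iff] at hfV
  exact hfV i (Finset.mem_insert_self _ _)

omit [Fintype κ] in
/-- A polynomial vanishing at all eigenvalues kills a symmetric operator. -/
lemma aeval_eq_zero {j : κ} {A : Module.End ℂ (W j)} (hA : LinearMap.IsSymmetric A)
    {P : Polynomial ℂ} (h : ∀ μ, Module.End.HasEigenvalue A μ → P.eval μ = 0) :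
    Polynomial.aeval A P = 0 := by
  let b := hA.eigenvectorBasis (n := Module.finrank ℂ (W j)) rfl
  refine b.toBasis.ext fun i => ?_
  rw [OrthonormalBasis.coe_toBasis,
    Module.End.aeval_apply_of_hasEigenvector (hA.hasEigenvector_eigenvectorBasis rfl i),
    h _ (hA.hasEigenvalue_eigenvalues rfl i), zero_smul, LinearMap.zero_apply]

variable (a : ι → ∀ j, Module.End ℂ (W j))

/-- **The simultaneous projector**: a space of tuples of operators closed under products which
contains a commuting family of symmetric ones contains a tuple projecting every space onto the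
joint eigenspace of a system with a nonzero eigenvalue. -/
theorem exists_projector (S : Submodule ℂ (∀ j, Module.End ℂ (W j)))
    (hmul : ∀ x ∈ S, ∀ y ∈ S, x * y ∈ S) (ha : ∀ i, a i ∈ S)
    (hsymm : ∀ i j, LinearMap.IsSymmetric (a i j)) (hcomm : ∀ i k, Commute (a i) (a k))
    (c : ι → ℂ) {i₀ : ι} (hc : c i₀ ≠ 0) :
    ∃ p ∈ S, ∀ j, (∀ f ∈ joint a c j, p j f = f) ∧ ∀ f, p j f ∈ joint a c j := by
  classical
  obtain ⟨I, hI⟩ := exists_finset_joint a c
  have hfin : ∀ i, ∃ E : Finset ℂ, ∀ j μ, Module.End.HasEigenvalue (a i j) μ → μ ∈ E := fun i =>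
    ⟨Finset.univ.biUnion fun j => (Module.End.finite_hasEigenvalue (a i j)).toFinset,
      fun j μ h => Finset.mem_biUnion.mpr ⟨j, Finset.mem_univ j, by simpa using h⟩⟩
  choose E hE using hfin
  let P : ι → Polynomial ℂ := fun i =>
    ∏ l ∈ (E i).erase (c i), Polynomial.C (c i - l)⁻¹ * (Polynomial.X - Polynomial.C l)
  have hP1 : ∀ i, (P i).eval (c i) = 1 := fun i => by
    simp only [P, Polynomial.eval_prod, Polynomial.eval_mul, Polynomial.eval_C, Polynomial.eval_sub,
      Polynomial.eval_X]
    exact Finset.prod_eq_one fun l hl =>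
      inv_mul_cancel₀ (sub_ne_zero.mpr (Finset.ne_of_mem_erase hl).symm)
  have hP0 : ∀ i j f, a i j (Polynomial.aeval (a i j) (P i) f) =
      c i • Polynomial.aeval (a i j) (P i) f := by
    intro i j f
    have h :=
      aeval_eq_zero (hsymm i j) (P := (Polynomial.X - Polynomial.C (c i)) * P i) fun μ hμ => by
      rw [Polynomial.eval_mul]
      by_cases hμc : μ = c i
      · simp [hμc]
      · refine mul_eq_zero.mpr (Or.inr ?_)
        rw [Polynomial.eval_prod]
        exact Finset.prod_eq_zero (Finset.mem_erase.mpr ⟨hμc, hE i j μ hμ⟩) (by simp)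
    have h2 := LinearMap.congr_fun h f
    simpa [sub_eq_zero] using h2
  have hev : ∀ (i : ι) (Q : Polynomial ℂ) (j : κ),
      Polynomial.aeval (a i) Q j = Polynomial.aeval (a i j) Q :=
    fun i Q j =>
      (Polynomial.aeval_algHom_apply (Pi.evalAlgHom ℂ (fun j => Module.End ℂ (W j)) j) (a i) Q).symm
  have habs : ∀ (i : ι) (Q : Polynomial ℂ), ∀ x ∈ S, Polynomial.aeval (a i) Q * x ∈ S := by
    intro i Q
    induction Q using Polynomial.induction_on' with
    | add p q hp hq => intro x hx; rw [map_add, add_mul]; exact S.add_mem (hp x hx) (hq x hx)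
    | monomial n b =>
      intro x hx
      have hn : ∀ n : ℕ, a i ^ n * x ∈ S := by
        intro n
        induction n with
        | zero => simpa using hx
        | succ k ih => rw [pow_succ', mul_assoc]; exact hmul _ (ha i) _ ih
      rw [Polynomial.aeval_monomial, mul_assoc, ← Algebra.smul_def]
      exact S.smul_mem b (hn n)
  -- products of the polynomials
  have hcomm' : ∀ i k, Commute (Polynomial.aeval (a i) (P i)) (Polynomial.aeval (a k) (P k)) :=
    fun i k => by
      have h1 : Commute (a i) (Polynomial.aeval (a k) (P k)) :=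
        Algebra.commute_of_mem_adjoin_singleton_of_commute
          (Polynomial.aeval_mem_adjoin_singleton ℂ (a k)) (hcomm i k)
      exact (Algebra.commute_of_mem_adjoin_singleton_of_commute
        (Polynomial.aeval_mem_adjoin_singleton ℂ (a i)) h1.symm).symm
  set Pr := I.noncommProd (fun i => Polynomial.aeval (a i) (P i)) fun i _ k _ _ => hcomm' i k
  have hPrfix : ∀ j, ∀ f ∈ joint a c j, Pr j f = f := by
    intro j f hf
    refine Finset.noncommProd_induction I _ _
      (fun x : ∀ j, Module.End ℂ (W j) => x j f = f) ?_ ?_ fun i _ => ?_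
    · intro x y hx hy
      show x j (y j f) = f
      rw [hy, hx]
    · rfl
    · rw [hev]
      by_cases hf0 : f = 0
      · simp [hf0]
      have hv : Module.End.HasEigenvector (a i j) (c i) f :=
        ⟨Module.End.mem_eigenspace_iff.mpr (mem_joint.mp hf i), hf0⟩
      rw [Module.End.aeval_apply_of_hasEigenvector hv, hP1, one_smul]
  have hPrmem : ∀ i ∈ I, ∀ j f, a i j (Pr j f) = c i • Pr j f := by
    intro i hi j f
    have hsplit : Pr = Polynomial.aeval (a i) (P i) *
        (I.erase i).noncommProd (fun i => Polynomial.aeval (a i) (P i))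
        (fun i _ k _ _ => hcomm' i k) :=
      (Finset.mul_noncommProd_erase I hi (fun i => Polynomial.aeval (a i) (P i))
        fun i _ k _ _ => hcomm' i k).symm
    rw [hsplit, Pi.mul_apply, Module.End.mul_apply, hev]
    exact hP0 i j _
  have hPrS : ∀ x ∈ S, Pr * x ∈ S := by
    refine Finset.noncommProd_induction I _ _ (fun y => ∀ x ∈ S, y * x ∈ S) ?_ ?_
      fun i _ => habs i _
    · intro y z hy hz x hx
      rw [mul_assoc]
      exact hy _ (hz x hx)
    · intro x hx
      rwa [one_mul]
  refine ⟨Pr * ((c i₀)⁻¹ • a i₀), hPrS _ (S.smul_mem _ (ha i₀)),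
    fun j => ⟨fun f hf => ?_, fun f => ?_⟩⟩
  · rw [Pi.mul_apply, Module.End.mul_apply, Pi.smul_apply, LinearMap.smul_apply,
      mem_joint.mp hf i₀, smul_smul, inv_mul_cancel₀ hc, one_smul, hPrfix j f hf]
  · exact hI j _ fun i hi => by
      rw [Pi.mul_apply, Module.End.mul_apply]
      exact hPrmem i hi j _

/-- Commuting operators on a nonzero finite dimensional complex space have a common eigenvector. -/
theorem exists_common_eigenvector {V : Type*} [AddCommGroup V] [Module ℂ V] [FiniteDimensional ℂ V]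
    {A : ι → Module.End ℂ V} (hA : ∀ i k, Commute (A i) (A k)) {M : Submodule ℂ V} (hM : M ≠ ⊥)
    (hst : ∀ i, ∀ f ∈ M, A i f ∈ M) :
    ∃ f ∈ M, f ≠ 0 ∧ ∀ i, ∃ μ : ℂ, A i f = μ • f := by
  classical
  obtain ⟨n, hn⟩ := exists_minimal_of_wellFoundedLT (fun n : ℕ => ∃ N : Submodule ℂ V,
    N ≤ M ∧ N ≠ ⊥ ∧ (∀ i, ∀ f ∈ N, A i f ∈ N) ∧ Module.finrank ℂ N = n) ⟨_, M, le_rfl, hM, hst, rfl⟩
  obtain ⟨N, hNM, hN0, hNst, hNn⟩ := hn.1
  obtain ⟨f, hf, hf0⟩ := Submodule.exists_mem_ne_zero_of_ne_bot hN0
  refine ⟨f, hNM hf, hf0, fun i => ?_⟩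
  have : Nontrivial N := Submodule.nontrivial_iff_ne_bot.mpr hN0
  obtain ⟨μ, hμ⟩ := Module.End.exists_eigenvalue ((A i).restrict (hNst i))
  obtain ⟨g, hg⟩ := hμ.exists_hasEigenvector
  set N' := N ⊓ Module.End.eigenspace (A i) μ
  have hg' : (g : V) ∈ N' := ⟨g.2, Module.End.mem_eigenspace_iff.mpr
    (congrArg Subtype.val hg.apply_eq_smul)⟩
  have hle : N' ≤ N := inf_le_left
  have heq : N' = N := by
    refine Submodule.eq_of_le_of_finrank_le hle ?_
    rw [hNn]
    refine hn.2 ⟨N', hle.trans hNM, ?_, ?_, rfl⟩ (by rw [← hNn]; exact Submodule.finrank_mono hle)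
    · exact fun e => hg.2 (Subtype.ext (by simpa [e] using hg'))
    · rintro k x ⟨hx1, hx2⟩
      refine ⟨hNst k x hx1, Module.End.mem_eigenspace_iff.mpr ?_⟩
      rw [← Module.End.mul_apply, (hA i k).eq, Module.End.mul_apply,
        Module.End.mem_eigenspace_iff.mp hx2, map_smul]
  rw [← heq] at hf
  exact ⟨μ, Module.End.mem_eigenspace_iff.mp hf.2⟩

end FermatAgent.LT.Spec
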