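import Mathlib
import Fermat.Agent.LT.Descent.Spec.Act
import Fermat.Agent.LT.Descent.Spec.Projector
import Fermat.Agent.LT.Whit.Arch

/-!
# Projectors made of modifications in one component

The modifications of one component act on finitely many spaces; one member projects on the
prescribed eigenvalues simultaneously in all of them.
-/

set_option autoImplicit false

noncomputable section

open Matrix IsDedekindDomain NumberField Filter MeasureTheory
open scoped MatrixGroups ENNReal ComplexConjugate InnerProductSpace ContDiff

namespace FermatAgent.LT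

namespace Spec

/-- Profiles of smooth functions of compact support. -/
def profileOf (k : ℝ → ℝ) (hk : ContDiff ℝ ∞ k) (hs : HasCompactSupport k) : Profile where
  f := k
  smooth := hk
  ρ := (hs.isCompact.bddAbove.choose : ℝ)
  supp _ hx := hs.isCompact.bddAbove.choose_spec (subset_tsupport k hx)

section Pair

variable {ι V W : Type} [NormedAddCommGroup V] [InnerProductSpace ℂ V]
  [NormedAddCommGroup W] [InnerProductSpace ℂ W]

variable (V W) in
/-- The spaces carrying the slots of a family: several copies of one space and one of another. -/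
abbrev Fm (ι : Type) : Option ι → Type
  | some _ => V
  | none => W

instance instNorm (ι : Type) : ∀ j, NormedAddCommGroup (Fm V W ι j)
  | some _ => inferInstanceAs (NormedAddCommGroup V)
  | none => inferInstanceAs (NormedAddCommGroup W)

instance instInner (ι : Type) : ∀ j, InnerProductSpace ℂ (Fm V W ι j)
  | some _ => inferInstanceAs (InnerProductSpace ℂ V)
  | none => inferInstanceAs (InnerProductSpace ℂ W)

/-- The radial target eigenspace of a slot at infinity. -/
def radOf (s : InfKer → Module.End ℂ V) : Submodule ℂ V :=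
  ⨅ (k : ℝ → ℝ) (hk : ContDiff ℝ ∞ k) (hs : HasCompactSupport k),
    Module.End.eigenspace (s (profileOf k hk hs).ker) (Whit.hT k)

/-- Membership in the radial eigenspace. -/
lemma mem_radOf (s : InfKer → Module.End ℂ V) {g : V} :
    g ∈ radOf s ↔ ∀ k hk hs, s (profileOf k hk hs).ker g = Whit.hT k • g := by
  simp [radOf]

/-- The rules of a slot at infinity. -/
structure InfSlot (s : InfKer → Module.End ℂ V) : Prop where
  lin : ∀ a b c, s (a.add (b.smul c)) = s a + c • s b
  mul : ∀ a b, s (a.comp b) = s a * s b
  comm : ∀ a b, Commute (s a) (s b)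
  symm : ∀ a, a.IsReal → LinearMap.IsSymmetric (s a)

variable [FiniteDimensional ℂ V] [FiniteDimensional ℂ W]

instance instFin (ι : Type) : ∀ j, FiniteDimensional ℂ (Fm V W ι j)
  | some _ => inferInstanceAs (FiniteDimensional ℂ V)
  | none => inferInstanceAs (FiniteDimensional ℂ W)

/-- One invariant kernel acts in all slots as a projector on the radial eigenspaces. -/
theorem exists_projector_inf [Fintype ι] {sL : ι → InfKer → Module.End ℂ V}
    {sK : InfKer → Module.End ℂ W} (hsL : ∀ w, InfSlot (sL w)) (hsK : InfSlot sK) :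
    ∃ q : InfKer, q.IsFlip ∧
      (∀ w, (∀ g ∈ radOf (sL w), sL w q g = g) ∧ ∀ g, sL w q g ∈ radOf (sL w)) ∧
      (∀ g ∈ radOf sK, sK q g = g) ∧ ∀ g, sK q g ∈ radOf sK := by
  classical
  let tup : InfKer → ∀ j, Module.End ℂ (Fm V W ι j) := fun q j => match j with
    | some w => sL w q
    | none => sK q
  let J := {k : ℝ → ℝ // ContDiff ℝ ∞ k ∧ HasCompactSupport k}
  let P : J → InfKer := fun i => (profileOf i.1 i.2.1 i.2.2).ker
  have hlin : ∀ a b c, tup (a.add (b.smul c)) = tup a + c • tup b := by
    intro a b c
    funext j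
    match j with
    | some w => exact (hsL w).lin a b c
    | none => exact hsK.lin a b c
  have hmul : ∀ a b, tup (a.comp b) = tup a * tup b := by
    intro a b
    funext j
    match j with
    | some w => exact (hsL w).mul a b
    | none => exact hsK.mul a b
  let i₀ : J := ⟨Whit.bump, Whit.contDiff_bump, Whit.bump.hasCompactSupport⟩
  let S : Submodule ℂ (∀ j, Module.End ℂ (Fm V W ι j)) :=
    { carrier := {x | ∃ q : InfKer, q.IsFlip ∧ tup q = x}
      add_mem' := by
        rintro _ _ ⟨a, ha, rfl⟩ ⟨b, hb, rfl⟩
        exact ⟨a.add (b.smul 1), ha.add (hb.smul 1), by rw [hlin, one_smul]⟩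
      zero_mem' :=
        ⟨(P i₀).add ((P i₀).smul (-1)), (Profile.isFlip _).add ((Profile.isFlip _).smul _),
        by rw [hlin, neg_one_smul, add_neg_cancel]⟩
      smul_mem' := by
        rintro c _ ⟨a, ha, rfl⟩
        exact ⟨a.add (a.smul (c - 1)), ha.add (ha.smul _), by
          rw [hlin, sub_smul, one_smul, add_sub_cancel]⟩ }
  obtain ⟨p, ⟨q, hq, rfl⟩, hp⟩ := exists_projector (fun i => tup (P i)) S
    (by
      rintro _ ⟨a, ha, rfl⟩ _ ⟨b, hb, rfl⟩
      exact ⟨a.comp b, ha.comp hb, hmul a b⟩)
    (fun i => ⟨P i, Profile.isFlip _, rfl⟩)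
    (fun i j => by
      match j with
      | some w => exact (hsL w).symm _ (Profile.isReal _)
      | none => exact hsK.symm _ (Profile.isReal _))
    (fun i k => by
      funext j
      match j with
      | some w => exact (hsL w).comm _ _
      | none => exact hsK.comm _ _)
    (fun i => Whit.hT i.1) (i₀ := i₀) Whit.hT_bump_ne_zero
  have hL : ∀ (w : ι) (g : V),
      g ∈ joint (fun i => tup (P i)) (fun i => Whit.hT i.1) (some w) ↔ g ∈ radOf (sL w) :=
    fun w g => by
      rw [mem_joint, mem_radOf]
      exact ⟨fun h k hk hs => h ⟨k, hk, hs⟩, fun h i => h i.1 i.2.1 i.2.2⟩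
  have hK : ∀ g : W,
      g ∈ joint (fun i => tup (P i)) (fun i => Whit.hT i.1) none ↔ g ∈ radOf sK :=
    fun g => by
      rw [mem_joint, mem_radOf]
      exact ⟨fun h k hk hs => h ⟨k, hk, hs⟩, fun h i => h i.1 i.2.1 i.2.2⟩
  exact ⟨q, hq, fun w => ⟨fun g hg => (hp (some w)).1 g ((hL w g).mpr hg),
    fun g => (hL w _).mp ((hp (some w)).2 g)⟩, fun g hg => (hp none).1 g ((hK g).mpr hg),
    fun g => (hK _).mp ((hp none).2 g)⟩

/-- One polynomial maps each of finitely many symmetric operators to a projector on its
eigenspace for the eigenvalue `c`. -/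
theorem exists_projector_poly [Fintype ι] {aL : ι → Module.End ℂ V} {aK : Module.End ℂ W}
    (hsymmL : ∀ i, LinearMap.IsSymmetric (aL i)) (hsymmK : LinearMap.IsSymmetric aK) (c : ℂ) :
    ∃ (P : ℕ → ℂ) (n : ℕ),
      (∀ i, (∀ g, aL i g = c • g → (∑ k ∈ Finset.range (n + 1), P k • aL i ^ k) g = g) ∧
        ∀ g, aL i ((∑ k ∈ Finset.range (n + 1), P k • aL i ^ k) g) =
          c • (∑ k ∈ Finset.range (n + 1), P k • aL i ^ k) g) ∧
      (∀ g, aK g = c • g → (∑ k ∈ Finset.range (n + 1), P k • aK ^ k) g = g) ∧
        ∀ g, aK ((∑ k ∈ Finset.range (n + 1), P k • aK ^ k) g) =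
          c • (∑ k ∈ Finset.range (n + 1), P k • aK ^ k) g := by
  classical
  let a : ℕ → ∀ j, Module.End ℂ (Fm V W ι j) := fun n j => match j with
    | some i => aL i ^ n
    | none => aK ^ n
  have hmul : ∀ i k, a i * a k = a (i + k) := by
    intro i k
    funext j
    match j with
    | some w => exact (pow_add _ i k).symm
    | none => exact (pow_add _ i k).symm
  obtain ⟨q, hq, hp⟩ := exists_projector (fun b : Bool => a (if b then 1 else 0))
    (Submodule.span ℂ (Set.range a))
    (fun x hx y hy => by
      induction hx using Submodule.span_induction with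
      | mem x hx =>
        induction hy using Submodule.span_induction with
        | mem y hy =>
          obtain ⟨i, rfl⟩ := hx
          obtain ⟨k, rfl⟩ := hy
          exact Submodule.subset_span ⟨i + k, (hmul i k).symm⟩
        | zero => simp
        | add y z _ _ h1 h2 => rw [mul_add]; exact Submodule.add_mem _ h1 h2
        | smul r y _ h1 => rw [mul_smul_comm]; exact Submodule.smul_mem _ r h1
      | zero => simp
      | add x z _ _ h1 h2 => rw [add_mul]; exact Submodule.add_mem _ h1 h2
      | smul r x _ h1 => rw [smul_mul_assoc]; exact Submodule.smul_mem _ r h1)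
    (fun b => Submodule.subset_span ⟨_, rfl⟩)
    (fun b j => by
      match j with
      | some i =>
        cases b
        · exact LinearMap.IsSymmetric.id
        · simpa [a] using hsymmL i
      | none =>
        cases b
        · exact LinearMap.IsSymmetric.id
        · simpa [a] using hsymmK)
    (fun b b' => by rw [Commute, SemiconjBy, hmul, hmul, add_comm])
    (fun b => if b then c else 1) (i₀ := false) (by simp)
  obtain ⟨l, hl⟩ := Finsupp.mem_span_range_iff_exists_finsupp.mp hq
  refine ⟨fun i => l i, l.support.sup id, ?_⟩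
  have hcomp : ∀ j, q j = ∑ i ∈ Finset.range (l.support.sup id + 1), l i • a i j := by
    intro j
    rw [← hl, Finsupp.sum, Finset.sum_apply]
    refine (Finset.sum_subset (fun i hi => Finset.mem_range.mpr (Nat.lt_succ_of_le
      (Finset.le_sup (f := id) hi))) fun i _ hi => ?_)
    rw [Finsupp.notMem_support_iff.mp hi, zero_smul]
    rfl
  have hjL : ∀ (i : ι) (g : V),
      g ∈ joint (fun b : Bool => a (if b then 1 else 0)) (fun b => if b then c else 1) (some i) ↔
        aL i g = c • g := fun i g => by
    rw [mem_joint]
    refine ⟨fun h => by simpa [a] using h true, fun h b => ?_⟩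
    cases b
    · simp [a]
    · simpa [a] using h
  have hjK : ∀ g : W,
      g ∈ joint (fun b : Bool => a (if b then 1 else 0)) (fun b => if b then c else 1) none ↔
        aK g = c • g := fun g => by
    rw [mem_joint]
    refine ⟨fun h => by simpa [a] using h true, fun h b => ?_⟩
    cases b
    · simp [a]
    · simpa [a] using h
  refine ⟨fun i => ?_, ?_, ?_⟩
  · rw [show ∑ k ∈ Finset.range (l.support.sup id + 1), l k • aL i ^ k = q (some i) from
      (hcomp (some i)).symm]
    exact ⟨fun g hg => (hp (some i)).1 g ((hjL i g).mpr hg),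
      fun g => (hjL i _).mp ((hp (some i)).2 g)⟩
  all_goals rw [show ∑ k ∈ Finset.range (l.support.sup id + 1), l k • aK ^ k = q none from
    (hcomp none).symm]
  · exact fun g hg => (hp none).1 g ((hjK g).mpr hg)
  · exact fun g => (hjK _).mp ((hp none).2 g)

end Pair

end Spec

end FermatAgent.LT
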