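import Mathlib
import Fermat.Agent.LT.Descent.Push

/-!
# Product kernels on radial eigenfunctions

An integral against a product of kernels over three places at infinity of a bounded function which
is an eigenfunction at each of them is a product of the eigenvalues.
-/

set_option autoImplicit false

noncomputable section

open Matrix IsDedekindDomain NumberField Filter MeasureTheory
open scoped MatrixGroups

namespace FermatAgent.LT.TwistCtx

variable {K L : Type*} [Field K] [NumberField K] [Field L] [NumberField L] [Algebra K L]
  (X : TwistCtx K L)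

include X in
open Classical in
/-- A product of one kernel at each of the three places multiplies an eigenfunction of the kernel
by the cube of the eigenvalue. -/
theorem integral_prod_kernel {k : InfKer} {h : ℂ} {f : InfPts L → ℂ} (hf : Measurable f) {C : ℝ}
    (hC : ∀ p, ‖f p‖ ≤ C)
    (heig : ∀ w y, ∫ p, k.k (y w) p * f (Function.update y w p) ∂H3.vol = h * f y) (x : InfPts L) :
    ∫ p, (∏ w, k.k (x w) (p w)) * f p ∂(Measure.pi fun _ : InfinitePlace L => H3.vol) =
      h ^ 3 * f x := by
  set e := X.T.e
  let T := X.triEquiv
  have hT : MeasurePreserving T (Measure.pi fun _ : InfinitePlace L => H3.vol)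
      (H3.vol.prod (H3.vol.prod H3.vol)) :=
    (Triple.measurePreserving_split H3.vol).comp
      ((measurePreserving_piCongrLeft (fun _ : InfinitePlace L => H3.vol) X.T.e).symm _)
  have hprod : ∀ p : InfPts L, ∏ w, k.k (x w) (p w) =
      k.k (x (e 0)) (p (e 0)) * k.k (x (e 1)) (p (e 1)) * k.k (x (e 2)) (p (e 2)) := fun p => by
    rw [← Equiv.prod_comp e, Fin.prod_univ_three]
  set F : H3 × H3 × H3 → ℂ := fun z =>
    k.k (x (e 0)) z.1 * k.k (x (e 1)) z.2.1 * k.k (x (e 2)) z.2.2 * f (T.symm z)
  have hpt : ∀ p : InfPts L, (∏ w, k.k (x w) (p w)) * f p = F (T p) := fun p => by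
    show _ = _ * f (T.symm (T p))
    rw [T.symm_apply_apply, hprod]
    rfl
  rw [show (∫ p, (∏ w, k.k (x w) (p w)) * f p ∂(Measure.pi fun _ : InfinitePlace L => H3.vol)) =
    ∫ p, F (T p) ∂(Measure.pi fun _ : InfinitePlace L => H3.vol) from by simp only [hpt],
    hT.integral_comp T.measurableEmbedding F]
  have hrow : ∀ a : H3, Integrable (fun p => k.k a p) H3.vol := fun a => by
    simpa using k.integrable_row a (f := fun _ => (1 : ℂ)) measurable_const
      (M := 1) (fun _ => by simp)
  have hFm : Measurable F := by
    have hk : ∀ a : H3, Measurable fun p => k.k a p := fun a => k.meas.comp measurable_prodMk_left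
    exact ((((hk _).comp measurable_fst).mul ((hk _).comp (measurable_fst.comp measurable_snd))).mul
      ((hk _).comp (measurable_snd.comp measurable_snd))).mul (hf.comp T.symm.measurable)
  have hbd : Integrable (fun z : H3 × H3 × H3 =>
      k.k (x (e 0)) z.1 * (k.k (x (e 1)) z.2.1 * k.k (x (e 2)) z.2.2))
      (H3.vol.prod (H3.vol.prod H3.vol)) := (hrow _).mul_prod ((hrow _).mul_prod (hrow _))
  have hint : Integrable F (H3.vol.prod (H3.vol.prod H3.vol)) := by
    refine (hbd.bdd_mul (hf.comp T.symm.measurable).aestronglyMeasurable (c := C)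
      (ae_of_all _ fun z => hC _)).congr (ae_of_all _ fun z => ?_)
    show f (T.symm z) * _ = _
    simp only [F]
    ring
  rw [integral_prod _ hint]
  have hsymm : ∀ a b c, ∀ i, T.symm (a, b, c) (e i) = ![a, b, c] i := fun a b c i => by
    have := X.triEquiv_apply (T.symm (a, b, c))
    rw [T.apply_symm_apply] at this
    simp only [Prod.mk.injEq] at this
    obtain ⟨h0, h1, h2⟩ := this
    fin_cases i
    · exact h0.symm
    · exact h1.symm
    · exact h2.symm
  have eq_pts : ∀ y : InfPts L, ∀ a b c, y (e 0) = a → y (e 1) = b → y (e 2) = c →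
      T.symm (a, b, c) = y := fun y a b c h0 h1 h2 => by
    funext w
    obtain ⟨i, rfl⟩ := e.surjective w
    rw [hsymm]
    fin_cases i <;> simp [h0, h1, h2]
  have hne : ∀ {i j : Fin 3}, i ≠ j → e i ≠ e j := fun h h' => h (e.injective h')
  have inner : ∀ a, Integrable (fun z : H3 × H3 => F (a, z)) (H3.vol.prod H3.vol) := fun a => by
    refine ((((hrow (x (e 1))).mul_prod (hrow (x (e 2)))).bdd_mul
      (f := fun z : H3 × H3 => k.k (x (e 0)) a * f (T.symm (a, z)))
      (measurable_const.mul
        (hf.comp (T.symm.measurable.comp measurable_prodMk_left))).aestronglyMeasurable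
      (c := k.C * C) (ae_of_all _ fun z => ?_))).congr (ae_of_all _ fun z => ?_)
    · rw [norm_mul]
      exact mul_le_mul (k.bound _ _) (hC _) (norm_nonneg _) k.C_nonneg
    · simp only [F]
      ring
  have step : ∀ a, ∫ z : H3 × H3, F (a, z) ∂H3.vol.prod H3.vol =
      h ^ 2 * (k.k (x (e 0)) a * f (Function.update x (e 0) a)) := fun a => by
    rw [integral_prod _ (inner a)]
    have s2 : ∀ b, ∫ c, F (a, b, c) ∂H3.vol =
        h * k.k (x (e 0)) a * (k.k (x (e 1)) b *
          f (Function.update (Function.update x (e 0) a) (e 1) b)) := fun b => by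
      set y := Function.update (Function.update x (e 0) a) (e 1) b
      have hy : y (e 2) = x (e 2) := by simp [y, hne]
      rw [show h * k.k (x (e 0)) a * (k.k (x (e 1)) b * f y) =
        k.k (x (e 0)) a * k.k (x (e 1)) b * (h * f y) by ring, ← heig (e 2) y, ← integral_const_mul]
      refine integral_congr_ae (ae_of_all _ fun c => ?_)
      simp only [F, hy]
      rw [eq_pts (Function.update y (e 2) c) a b c (by simp [y, hne]) (by simp [y, hne]) (by simp)]
      ring
    simp only [s2, integral_const_mul]
    have h1 := heig (e 1) (Function.update x (e 0) a)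
    rw [show Function.update x (e 0) a (e 1) = x (e 1) by simp [hne]] at h1
    rw [h1]
    ring
  simp only [step, integral_const_mul, heig]
  ring

end FermatAgent.LT.TwistCtx
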