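import Mathlib
import Fermat.Agent.LT.Descent.Spec.Slots
import Fermat.Agent.LT.Base.FiniteIndex

/-!
# The profile at infinity

The profile kernel has a real, nonzero eigenvalue on the radial eigenfunctions.
-/

set_option autoImplicit false

noncomputable section

open Matrix IsDedekindDomain NumberField Filter MeasureTheory
open scoped MatrixGroups ENNReal ComplexConjugate ContDiff

namespace FermatAgent.LT

namespace Spec

/-- The profile. -/
def bumpP : Profile := profileOf Whit.bump Whit.contDiff_bump Whit.bump.hasCompactSupport

/-- Its kernel. -/
def k0 : InfKer := bumpP.ker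

/-- The profile is real. -/
lemma k0_isReal : k0.IsReal := Profile.isReal _

/-- The eigenvalue of the profile on the radial eigenfunctions. -/
def h0 : ℝ := (Whit.hT Whit.bump).re

/-- The transform of the bump. -/
lemma hT_bump : Whit.hT Whit.bump = (h0 : ℂ) := by
  refine (Complex.conj_eq_iff_re.mp ?_).symm
  rw [Whit.hT, Whit.kint, ← integral_conj]
  exact integral_congr_ae (ae_of_all _ fun p => by simp)

/-- The transform of the bump is nonzero. -/
lemma h0_ne : h0 ≠ 0 := fun h =>
  Whit.hT_bump_ne_zero (by rw [hT_bump, h, Complex.ofReal_zero])

end Spec

end FermatAgent.LT
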