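import Mathlib
import Fermat.Agent.LT.Descent.Hyp.Trunc
import Fermat.Agent.LT.Descent.Uni.Main

/-!
# Truncated integrals of bounded sums

Bounded sums are integrable over a domain of finite volume, and their truncations tend to the
integral.
-/

set_option autoImplicit false

noncomputable section

open Matrix IsDedekindDomain NumberField Filter MeasureTheory
open scoped MatrixGroups ENNReal Topology

namespace FermatAgent.LT.Ctx

open TwistCtx

/-- The identity is unipotent. -/
lemma isUnip_one {F : Type*} [Field F] : IsUnip (1 : G2 F) := by
  rw [show (1 : G2 F) = ProjGenLinGroup.mk 1 from (map_one _).symm, isUnip_mk]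
  simp; norm_num

/-- Integrability of a bounded sum. -/
lemma integrable_sumOn {F : Type*} [Field F] [NumberField F] {U : Level F} (σ : Semilin U)
    (k : PtKer U) (A : Set (G2 F)) (s : Set (Space U))
    [IsFiniteMeasure ((Space.vol U).restrict s)] (h : ∃ B, ∀ x, ‖σ.sumOn k A x‖ ≤ B) :
    Integrable (σ.sumOn k A) ((Space.vol U).restrict s) :=
  h.elim fun B hB =>
    Integrable.of_bound (σ.measurable_sumOn k A).aestronglyMeasurable B (ae_of_all _ hB)

/-- Truncated integrals tend to the integral. -/
lemma tendsto_integral_trunc {F : Type*} [Field F] [NumberField F]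
    {U : Level F}
    {s : Set (Space U)} {f : Space U → ℂ} (hf : Integrable f ((Space.vol U).restrict s)) :
    Tendsto (fun ε => ∫ x in s, f x * (Space.trunc ε x : ℂ) ∂Space.vol U) (𝓝[>] (0 : ℝ))
      (𝓝 (∫ x in s, f x ∂Space.vol U)) := by
  refine tendsto_integral_filter_of_dominated_convergence (fun x => ‖f x‖)
    (Eventually.of_forall fun ε => hf.1.mul
      (Complex.measurable_ofReal.comp (Space.measurable_trunc ε)).aestronglyMeasurable)
    (Eventually.of_forall fun ε => ae_of_all _ fun x => ?_) hf.norm (ae_of_all _ fun x => ?_)
  · rw [norm_mul, Complex.norm_real, Real.norm_of_nonneg (Space.trunc_nonneg ε x)]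
    exact mul_le_of_le_one_right (norm_nonneg _) (Space.trunc_le_one ε x)
  · have h := ((Complex.continuous_ofReal.tendsto 1).comp (Space.tendsto_trunc x)).const_mul (f x)
    simpa [Function.comp_def] using h

end FermatAgent.LT.Ctx
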