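import Mathlib
import Fermat.Agent.LT.Descent.Spec.Tame
import Fermat.Agent.LT.Descent.Spec.RamAct
import Fermat.Agent.LT.Octa.Bundle
import Fermat.Agent.LT2.Cusp.Data
import Fermat.Agent.LT2.Geo.Main
import Fermat.Agent.LT2.Spec.Main

/-!
# The cubic descent

For a cyclic cubic extension `L / K` in the tame setting, a cuspidal eigenfunction over `L` whose
eigenvalues come from `K` gives a good form over `K` with the same eigenvalues at the split places
which is not killed by the class functions at the ramified places.  This is the descent at deep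
level for the bad places `v₃` and the ramified ones; it is applied to the theta series.
-/

set_option autoImplicit false

noncomputable section

open Matrix IsDedekindDomain NumberField Filter MeasureTheory
open scoped MatrixGroups ENNReal ContDiff

namespace FermatAgent.LT

namespace Ctx

section Forms

variable {K : Type} [Field K] [NumberField K] {U : Level K} {v : HeightOneSpectrum (𝓞 K)}

open Classical in
/-- Translating a lifted function against the class function at `v` is lifting its image under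
the kernel operator of the class function. -/
theorem ramAct_liftF (hU : U.loc v = locK1 v) (φ : Space U → ℂ) :
    ramAct v (Whit.liftF U φ) = Whit.liftF U (finOp (ramKer hU) φ) := by
  have : Finite (↥(locK v) ⧸ (locK1 v).subgroupOf (locK v)) :=
    Nat.finite_of_card_ne_zero (relIndex_locK1_ne_zero v)
  cases nonempty_fintype (↥(locK v) ⧸ (locK1 v).subgroupOf (locK v))
  funext y a
  set G : G2 K ⧸ U.loc v → ℂ := fun d => φ (y, (Whit.cls U a).update v d)
  let p : ↥(locK v) ⧸ (locK1 v).subgroupOf (locK v) → G2 K ⧸ U.loc v :=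
    fun r => QuotientGroup.mk (a.1 v * (r.out : G2 K))
  have hp : Function.Injective p := fun r r' h => by
    rw [QuotientGroup.eq, hU] at h
    rw [← QuotientGroup.out_eq' r, ← QuotientGroup.out_eq' r', QuotientGroup.eq,
      Subgroup.mem_subgroupOf]
    simpa [mul_assoc] using h
  show ramAct v (Whit.liftF U φ) y a = ∑ d ∈ ((ramKer hU).row (QuotientGroup.mk (a.1 v))).toFinset,
    (ramKer hU).k (QuotientGroup.mk (a.1 v)) d * G d
  rw [← LocKer.tsum_row_eq, ← hp.tsum_eq (fun d hd => ?_), tsum_fintype, ramAct,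
    finsum_eq_sum_of_fintype, Finset.sum_apply, Finset.sum_apply]
  · refine Finset.sum_congr rfl fun r _ => ?_
    simp only [p, G, Pi.smul_apply, smul_eq_mul, Whit.rt, Whit.liftF, Whit.cls_mul_atV, ramKer_mk,
      inv_mul_cancel_left]
  · have hk := left_ne_zero_of_mul (Function.mem_support.mp hd)
    induction d using QuotientGroup.induction_on with | H h =>
    rw [ramKer_mk] at hk
    have hmem : (a.1 v)⁻¹ * h ∈ locK v := by_contra fun hn => hk (ramFun_eq_zero hn)
    obtain ⟨e, he⟩ := QuotientGroup.mk_out_eq_mul ((locK1 v).subgroupOf (locK v))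
      (⟨_, hmem⟩ : locK v)
    refine ⟨QuotientGroup.mk ⟨_, hmem⟩, ?_⟩
    simp only [p]
    rw [he, QuotientGroup.eq, hU, Subgroup.coe_mul,
      show (a.1 v * ((a.1 v)⁻¹ * h * ((e : locK v) : G2 K)))⁻¹ * h = ((e : locK v) : G2 K)⁻¹ by
        group]
    exact inv_mem (Subgroup.mem_subgroupOf.mp e.2)

/-- The operators on forms of a list of places are the kernel operators. -/
theorem foldr_ramAct {A : ∀ v, LocKer U v} {l : List (HeightOneSpectrum (𝓞 K))}
    (hA : ∀ v ∈ l, ∃ hU : U.loc v = locK1 v, A v = ramKer hU) (φ : Space U → ℂ) :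
    l.foldr ramAct (Whit.liftF U φ) = Whit.liftF U (l.foldr (fun v h => finOp (A v) h) φ) := by
  induction l with
  | nil => rfl
  | cons v l ih =>
    obtain ⟨hU, he⟩ := hA v List.mem_cons_self
    rw [List.foldr_cons, List.foldr_cons, ih fun u hu => hA u (List.mem_cons_of_mem v hu),
      ramAct_liftF hU, he]

/-- A good form of deep level which comes from the space of the congruence level `S` is a good
form of level `S`. -/
theorem isGood_of_deep {S : Finset (HeightOneSpectrum (𝓞 K))}
    (hU : U = Level.ofFinset S) {c : HeightOneSpectrum (𝓞 K) → ℂ} {φ : Space U → ℂ}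
    (h : LT2.Whit.IsGood S c (Whit.liftF U φ)) : Period.IsGood S c (Whit.liftF U φ) := by
  subst hU
  refine Period.IsGood.of_deep
    ⟨h.form.glob_smul, fun y a u hu => ?_, h.form.cont, h.form.bdd⟩ h
  show φ (y, Whit.cls _ (a * u)) = φ (y, Whit.cls _ a)
  rw [Whit.cls_mul_of_mem _ hu]

end Forms

variable {K L : Type} [Field K] [NumberField K] [Field L] [NumberField L] [Algebra K L]
  [IsTotallyComplex K] [IsTotallyComplex L] [IsPrincipalIdealRing (𝓞 K)] {C : Ctx K L}

/-- **The cubic descent**: a nonzero bounded invariant radial eigenfunction above, tame cuspidal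
over `v₃`, whose eigenvalues at the split places are those of `c` below, gives a good form of level
`{v₃} ∪ Ram` below with those eigenvalues at the split places which the class functions at the
ramified places do not kill.  Anchor places where `c` vanishes are assumed to avoid any finite
set. -/
theorem exists_descent (hS : C.v₃ ∉ C.Ram) (hU : C.UK = Level.ofFinset (Finset.cons C.v₃ C.Ram hS))
    (c : HeightOneSpectrum (𝓞 K) → ℂ)
    (haux : ∀ avoid : Finset (HeightOneSpectrum (𝓞 K)),
      ∃ v, Nonempty (LT2.Anchor C.toCtx v) ∧ v ∉ avoid ∧ c v = 0)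
    {φ : Space C.UL → ℂ} (hφ : LT2.IsEigenFun φ)
    (htame : ∀ w, C.b w = C.v₃ → Whit.IsTameCusp w (Whit.liftF C.UL φ))
    (heck : ∀ w, C.IsSplit (C.b w) → C.b w ≠ C.v₃ →
      ∀ x, heckeOp w φ x = c (C.b w) * φ x) (hne : φ ≠ 0) :
    ∃ (c' : HeightOneSpectrum (𝓞 K) → ℂ) (f₀ : InfPts K → Whit.adelGrp K → ℂ),
      (∀ v, C.IsSplit v → v ≠ C.v₃ → c' v = c v) ∧
      Period.IsGood (Finset.cons C.v₃ C.Ram hS) c' f₀ ∧
      C.Ram.toList.foldr ramAct f₀ ≠ 0 := by
  classical
  set D := C.deepBad
  obtain ⟨v', ⟨An⟩, -, hc'⟩ := haux ∅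
  obtain ⟨v₀, ⟨A₀⟩, hv₀, hc₀⟩ := haux {v'}
  obtain ⟨w', hw'⟩ := C.exists_over v'
  obtain ⟨w₀, hw₀⟩ := C.exists_over v₀
  have hs : ∀ w, C.b w ∉ C.S → C.b w ≠ C.v₃ := fun w hw e =>
    hw ((C.mem_S _).2 (Or.inl e))
  obtain ⟨F, hF⟩ := LT2.exists_fam_of_zero An ⟨w', hw'⟩ (LT2.Spec.isFD_domL C.toCtx)
    (LT2.Spec.isFD_domK C.toCtx) hφ fun u x => by
      have hu : C.b u.1 = v' := u.2
      have hS' : C.b u.1 ∉ C.S := by rw [hu]; exact An.notMem
      refine (heck u.1 (hu.symm ▸ An.split) (hs u.1 hS') x).trans ?_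
      rw [hu, hc', zero_mul]
  have heL : ∀ w, C.b w ∈ C.S → ∀ x, finOp (D.eL w) φ x = φ x := fun w _ x => by
    by_cases h : C.b w = C.v₃
    · rw [show D.eL w = e11 (C.UL_v₃ w h) from C.deepBad_eL_of h]
      exact finOp_e11_of_tame (C.isThree_over h) (C.UL_v₃ w h) (htame w h) x
    · rw [show D.eL w = (1 : LocKer C.UL w) from C.deepBad_eL_ne h]
      exact LT2.Spec.finOp_one φ x
  obtain ⟨c', ψ, hcc, hgood, hker⟩ := LT2.Spec.exists_descent C.toCtx D A₀.split A₀.notMem
    (fun h => hv₀ (by simp [h])) F ⟨w', hw'⟩ ⟨w₀, hw₀⟩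
    (LT2.Geo.geoEq D _ A₀.split A₀.notMem (LT2.Spec.isFD_domL C.toCtx) (LT2.Spec.isFD_domK C.toCtx)
      (LT2.Spec.measurableSet_domK C.toCtx))
    (C.fixHyp) c hc₀ hφ
    (fun w hw hsp x => heck w hsp (hs w hw) x) heL hF hne
  refine ⟨c', Whit.liftF C.UK ψ, fun v hv h3 => hcc v (fun h => ?_) hv, ?_, fun e => hker ?_⟩
  · exact ((C.mem_S _).1 h).elim h3 (C.not_mem_Ram hv)
  · refine isGood_of_deep hU ?_
    rwa [show Finset.cons C.v₃ C.Ram hS = C.S from
      Finset.ext fun v => by rw [Finset.mem_cons, C.mem_S]]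
  · have hfold := foldr_ramAct (U := C.UK) (A := D.fK) (l := C.Ram.toList)
      (fun v hv => ⟨C.UK_ram v (Finset.mem_toList.1 hv),
        C.deepBad_fK (Finset.mem_toList.1 hv)⟩) ψ
    rw [C.badSingle_eq]
    funext x
    obtain ⟨y, z⟩ := x
    obtain ⟨a, rfl⟩ := Whit.cls_surjective z
    exact congrFun (congrFun (hfold.symm.trans e) y) a

end Ctx

namespace Octa.OctaData

variable {R : OctaRep} (D : OctaData R)

/-- **The cubic descent of the theta series**: the eigenvalues `cK` at the split places are those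
of a good form of tame level over the base, not killed by the class functions at the ramified
places. -/
theorem exists_descent : ∃ (c : HeightOneSpectrum (𝓞 D.K) → ℂ)
    (f₀ : InfPts D.K → Whit.adelGrp D.K → ℂ),
      (∀ v, D.C.IsSplit v → v ≠ D.C.v₃ → c v = D.cK v) ∧
      Period.IsGood (Finset.cons D.C.v₃ D.C.Ram D.C.v₃_notMem_Ram) c f₀ ∧
      D.C.Ram.toList.foldr Ctx.ramAct f₀ ≠ 0 := by
  have key : ∀ (U : Level D.L), U = D.Θ.lvl → ∃ φ : Space U → ℂ, LT2.IsEigenFun φ ∧
      (∀ w ∈ D.Θ.S, Whit.IsTameCusp w (Whit.liftF U φ)) ∧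
      (∀ w ∉ D.Θ.S, ∀ x, heckeOp w φ x = D.c w * φ x) ∧ φ ≠ 0 := by
    rintro U rfl
    refine ⟨D.Θ.phi, ⟨D.phi_smul, D.Θ.measurable_phi, D.phi_bound,
      fun w k hk hs x => D.phi_radial w k hk hs x⟩, fun w hw => D.Θ.isTameCusp_phi hw, D.heck, ?_⟩
    obtain ⟨x, hx⟩ := D.Θ.exists_phi_ne_zero
    exact fun h => hx (congrFun h x)
  obtain ⟨φ, hφ, ht, hh, hne⟩ := key _ D.UL_eq
  refine Ctx.exists_descent D.C.v₃_notMem_Ram D.UK_eq D.cK D.aux
    hφ (fun w hw => ht w ((D.mem_S w).2 hw)) (fun w hs h3 x => ?_) hne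
  rw [hh w (fun h => h3 ((D.mem_S w).1 h)), D.cK_split w hs h3]

end Octa.OctaData

end FermatAgent.LT
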